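import Fermat.Agent.S33.M.Bridge

/-!
# S33/M : (B1) a class killed by both norms has arbitrarily deep representatives       keys `S33/M-WA` (`exists_idem_deep`, `weak_approx`; ~150 lines), `S33/M-B1a` (`deep_step`, `exists_deep_pair`; ~250), `S33/M-B1b` (`exists_deep`; ~120)

`F = FN (M1 p)`, `al = heckeAlphaBar`, `Nm = normAlpha M1 p`, `W = Wq S.hc`, `w∞ = wG`, `w₀ = wZ = wG ∘ W`.

## M-WA (weak approximation for the two Gauss valuations)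
`exists_e S : ∃ e : V2, r1 e = 1 ∧ r2 e = 0`, i.e. `e` integral for both valuations, `w∞ (e - 1) > 0`, `w₀ e > 0` (`r1_mk`, `r2_mk`, `GT_zero_iff`, `wZ_GT_iff`, `mem_V2`, `GE_zero_iff`).
`exists_of_GT`: `t > 0` with `w∞ (e - 1) ≥ t`, `w₀ e ≥ t`.  Put `e_n = 1 - (1 - e^n)^n`, `n ≥ 1`.
 at `0`: `w₀ (e^n) ≥ n t`; `(1 - y)^n - 1 ∈ y ℤ[y]` (`sub_dvd_pow_sub_pow`/`Commute.…`: `(1-y) - 1 ∣ (1-y)^n - 1^n`), so `w₀ (e_n) ≥ n t`.
 at `∞`: `1 - e^n = (1 - e)(1 + e + … + e^(n-1))` has `w∞ ≥ t`, so `w∞ (1 - e_n) = n w∞ (1 - e^n) ≥ n t`.     `exists_idem_deep`: `n ≥ B / t` (`exists_nat_ge`).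
`weak_approx`: `g = 1`: `h = 1`.  Otherwise let `B' = B + |w∞ (g - 1)| + |w₀ (g - 1)|`, `ε = e_n` for `B'`, `h = ε + (1 - ε) g`: `h - 1 = (1 - ε)(g - 1)`, `h - g = ε (1 - g)`.

## M-B1a
`deep_step`: `GE_norm_div` (SER) for `x = b`: `w∞ (W b - 1) ≥ t` is `w₀ (b - 1) ≥ t` (`wZ_GE_iff`, `map_sub`, `map_one`).  So `y := al (Nm b) / b` has `w∞ (y - 1) ≥ t' := min (t + 1/(p-1)) (p t)`, and `a' := y⁻¹` too (`GE_inv_sub_one`, `t' > 0`).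
 `b = u k^p ⟹ Nm b = Nm u (Nm k)^p = (g Nm k)^p` (`normAlpha` is multiplicative: `map_mul`, `map_pow`), `al (Nm b) = m^p`, `a' = b / m^p = u (k/m)^p`.
`exists_deep_pair`: `P t :⟺ ∃ a b k l, k, l ≠ 0, a = u k^p, b = u l^p, w∞ (a - 1) ≥ t, w₀ (b - 1) ≥ t`.
 `P t₀` for some `t₀ > 0` (`a = b = u`; `exists_const_of_GT2`).
 `P t ⟹ P (min (t + 1/(p-1)) (p t))`: new `a'` = `deep_step` applied to `(u, b)`;  new `b'` = `W` of `deep_step` applied to `(W u, W a)` [`W a = W u (W k)^p`, `Nm (W u)` is a `p`-th power, `w₀ (W a - 1) = w∞ (W W a - 1) = w∞ (a - 1)` (`Wq_Wq`)]: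
 it gives `a'' = W u k'^p` with `w∞ (a'' - 1) ≥ t'`; `b' = W a'' = u (W k')^p`, `w₀ (b' - 1) = w∞ (a'' - 1)`.
 `min (t + 1/(p-1)) (p t) ≥ t + δ`, `δ = min (1/(p-1)) ((p-1) t₀) > 0` for `t ≥ t₀`; induction: `P (t₀ + n δ)`; `n ≥ (B - t₀)/δ`.

## M-B1b
`a = u k^p`, `b = u l^p` from `exists_deep_pair` (`B ≥ 1`, WLOG replace `B` by `max B 1`).  `g = l / k`, so `b = a g^p`.  `weak_approx` with `g` and `B'' = B + |w₀ g|`: `h`, `w∞ (h - 1) ≥ B`, `w₀ (h - g) ≥ B + w₀ g`.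
`c = a h^p = u (k h)^p`.  At `∞`: `a ≡ 1`, `h^p ≡ 1 (B)` (`GE_pow_sub_one`, `GE_mul_sub_one`).  At `0`: `c = b (h/g)^p`, `h/g - 1 = (h - g)/g` has `w₀ ≥ B`.  (`h ≠ 0` because `w∞ (h - 1) > 0`.)
-/

set_option autoImplicit false
set_option synthInstance.maxHeartbeats 400000

open HahnSeries ModularCurve AlgebraicCurve Polynomial Fermat.Agent.S24 Fermat.Agent.S29 Fermat.Agent.S18
  Fermat.Agent.ES Fermat.Agent.ES.Alg Fermat.Agent.S34.Mod Fermat.Agent.S34.T Fermat.Agent.S05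
  Fermat.Agent.S55.B ExtCitation
open Fermat.Agent.S55 (Dq Iq)

noncomputable section

namespace Fermat.Agent.S33.M

section Abs

variable {F : Type*} [Field F] {w1 w2 : RVal F}

theorem waAux_GE_geom {w : RVal F} {x : F} (hx : w.GE x 0) (n : ℕ) :
    w.GE (∑ i ∈ Finset.range n, x ^ i) 0 :=
  GE_sum w _ _ _ fun i _ => by simpa using hx.pow i

theorem waAux_idem {e : F} {t : ℝ} (ht : 0 < t) (h1 : w1.GE (1 - e) t) (h2 : w2.GE e t) (B : ℝ) :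
    ∃ ε : F, w1.GE (1 - ε) B ∧ w2.GE ε B := by
  obtain ⟨n, hn⟩ := exists_nat_ge (B / t)
  have hnt : B ≤ n * t := by rwa [div_le_iff₀ ht] at hn
  refine ⟨1 - (1 - e ^ n) ^ n, ?_, ?_⟩
  · have he : w1.GE e 0 := by
      have := (RVal.EQ_one (v := w1)).GE le_rfl |>.sub (h1.mono ht.le)
      rwa [sub_sub_cancel] at this
    have e1 : 1 - e ^ n = (1 - e) * ∑ i ∈ Finset.range n, e ^ i := (mul_neg_geom_sum e n).symm
    have h3 : w1.GE (1 - e ^ n) t := by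
      rw [e1]
      simpa using h1.mul (waAux_GE_geom he n)
    rw [sub_sub_cancel]
    exact (h3.pow n).mono hnt
  · have hy : w2.GE (e ^ n) (n * t) := h2.pow n
    have hnt0 : (0 : ℝ) ≤ n * t := mul_nonneg (Nat.cast_nonneg n) ht.le
    have h1y : w2.GE (1 - e ^ n) 0 := ((RVal.EQ_one (v := w2)).GE le_rfl).sub (hy.mono hnt0)
    have e1 : 1 - (1 - e ^ n) ^ n = e ^ n * ∑ i ∈ Finset.range n, (1 - e ^ n) ^ i := by
      rw [← mul_neg_geom_sum (1 - e ^ n) n, sub_sub_cancel]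
    rw [e1]
    exact (hy.mul (waAux_GE_geom h1y n)).mono (by linarith)

theorem waAux_approx (hid : ∀ B : ℝ, ∃ ε : F, w1.GE (1 - ε) B ∧ w2.GE ε B) (g : F) (B : ℝ) :
    ∃ h : F, w1.GE (h - 1) B ∧ w2.GE (h - g) B := by
  obtain ⟨ε, h1, h2⟩ := hid (B + |w1.w (g - 1)| + |w2.w (1 - g)|)
  refine ⟨ε + (1 - ε) * g, ?_, ?_⟩
  · have e : ε + (1 - ε) * g - 1 = (1 - ε) * (g - 1) := by ring
    rw [e]
    have h3 : w1.GE (g - 1) (-|w1.w (g - 1)|) := Or.inr (neg_abs_le _)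
    exact (h1.mul h3).mono (by linarith [abs_nonneg (w2.w (1 - g))])
  · have e : ε + (1 - ε) * g - g = ε * (1 - g) := by ring
    rw [e]
    have h3 : w2.GE (1 - g) (-|w2.w (1 - g)|) := Or.inr (neg_abs_le _)
    exact (h2.mul h3).mono (by linarith [abs_nonneg (w1.w (g - 1))])

theorem b1bAux (happ : ∀ (g : F) (B : ℝ), ∃ h : F, w1.GE (h - 1) B ∧ w2.GE (h - g) B) (p : ℕ)
    {u k l : F} (hk : k ≠ 0) (hl : l ≠ 0) {B : ℝ} (hB : 1 ≤ B) (h1 : w1.GE (u * k ^ p - 1) B)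
    (h2 : w2.GE (u * l ^ p - 1) B) :
    ∃ h : F, h ≠ 0 ∧ w1.GE (u * h ^ p - 1) B ∧ w2.GE (u * h ^ p - 1) B := by
  have hB0 : (0 : ℝ) ≤ B := by linarith
  have hg0 : l / k ≠ 0 := div_ne_zero hl hk
  obtain ⟨h, h3, h4⟩ := happ (l / k) (B + |w2.w (l / k)|)
  have hh0 : h ≠ 0 := by
    rintro rfl
    have := h3.le_w (by simp)
    rw [zero_sub, RVal.w_neg, RVal.w_one] at this
    linarith [abs_nonneg (w2.w (l / k))]
  refine ⟨k * h, mul_ne_zero hk hh0, ?_, ?_⟩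
  · have e : u * (k * h) ^ p = u * k ^ p * h ^ p := by ring
    rw [e]
    exact GE_mul_sub_one hB0 h1
      (GE_pow_sub_one hB0 (h3.mono (by linarith [abs_nonneg (w2.w (l / k))])) p)
  · have e : u * (k * h) ^ p = u * l ^ p * (h / (l / k)) ^ p := by
      rw [mul_assoc, ← mul_pow]
      congr 2
      field_simp
    rw [e]
    refine GE_mul_sub_one hB0 h2 (GE_pow_sub_one hB0 ?_ p)
    have e2 : h / (l / k) - 1 = (h - l / k) * (l / k)⁻¹ := by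
      field_simp
    rw [e2]
    have h5 : w2.GE (l / k)⁻¹ (-|w2.w (l / k)|) := by
      refine Or.inr ?_
      rw [RVal.w_inv hg0]
      exact neg_le_neg (le_abs_self _)
    exact (h4.mul h5).mono (by linarith)

theorem b1aAux_iter {P : ℝ → Prop} (hmono : ∀ s t, s ≤ t → P t → P s) {t₀ c p : ℝ} (ht₀ : 0 < t₀)
    (hc : 0 < c) (hp : 1 < p) (h0 : P t₀) (hstep : ∀ t, 0 < t → P t → P (min (t + c) (p * t)))
    (B : ℝ) : P B := by
  set δ : ℝ := min c ((p - 1) * t₀) with hδ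
  have hδpos : 0 < δ := lt_min hc (mul_pos (by linarith) ht₀)
  have key : ∀ n : ℕ, P (t₀ + n * δ) := by
    intro n
    induction n with
    | zero => simpa using h0
    | succ n ih =>
      have hn : (0 : ℝ) ≤ n * δ := mul_nonneg (Nat.cast_nonneg n) hδpos.le
      refine hmono _ _ ?_ (hstep _ (by linarith) ih)
      push_cast
      apply le_min
      · have := min_le_left c ((p - 1) * t₀)
        linarith
      · have h1 := min_le_right c ((p - 1) * t₀)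
        have h2 : (p - 1) * t₀ ≤ (p - 1) * (t₀ + n * δ) :=
          mul_le_mul_of_nonneg_left (by linarith) (by linarith)
        linarith
  obtain ⟨n, hn⟩ := exists_nat_ge ((B - t₀) / δ)
  rw [div_le_iff₀ hδpos] at hn
  exact hmono _ _ (by linarith) (key n)

end Abs

variable {q : Nat.Primes} {M1 r : ℕ} [NeZero M1] [NeZero (q : ℕ)] [NeZero r]
variable (S : Setup M1 (q : ℕ) r (AA q))

/-- [S33/M-WA] approximate idempotents -/
theorem exists_idem_deep (B : ℝ) : ∃ ε : FN (M1 * (q : ℕ)),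
    (wG q (M1 * (q : ℕ))).GE (1 - ε) B ∧ (wZ q S.hc).GE ε B := by
  obtain ⟨⟨e, he⟩, he1, he2⟩ := exists_e S
  rw [r1_mk] at he1
  rw [r2_mk] at he2
  have h1 : (wG q (M1 * (q : ℕ))).GT (1 - e) 0 := by
    have hm : 1 - e ∈ Vinf (AA q) (M1 * (q : ℕ)) := sub_mem (one_mem _) he.1
    have h0 : resInf (AA q) (M1 * (q : ℕ)) ⟨1 - e, hm⟩ = 0 := by
      have e' : (⟨1 - e, hm⟩ : Vinf (AA q) (M1 * (q : ℕ))) = 1 - ⟨e, he.1⟩ := rfl
      rw [e', map_sub, map_one, he1, sub_self]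
    exact (GT_zero_iff (⟨1 - e, hm⟩ : Vinf (AA q) (M1 * (q : ℕ)))).2 h0
  have h2 : (wG q (M1 * (q : ℕ))).GT (Wq S.hc e) 0 :=
    (GT_zero_iff (⟨Wq S.hc e, he.2⟩ : Vinf (AA q) (M1 * (q : ℕ)))).2 he2
  obtain ⟨c1, -, hc1, h1'⟩ := exists_of_GT h1
  obtain ⟨c2, -, hc2, h2'⟩ := exists_of_GT h2
  exact waAux_idem (t := min ((wq q).w c1) ((wq q).w c2)) (lt_min hc1 hc2)
    (h1'.mono (min_le_left _ _)) ((wZ_GE_iff S.hc).2 (h2'.mono (min_le_right _ _))) B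

/-- [S33/M-WA] weak approximation -/
theorem weak_approx (g : FN (M1 * (q : ℕ))) (B : ℝ) : ∃ h : FN (M1 * (q : ℕ)),
    (wG q (M1 * (q : ℕ))).GE (h - 1) B ∧ (wZ q S.hc).GE (h - g) B :=
  waAux_approx (exists_idem_deep S) g B

/-- [S33/M-B1a] one step of the contraction -/
theorem deep_step {u b l : FN (M1 * (q : ℕ))} (hu : u ≠ 0) (hl : l ≠ 0) (hb : b = u * l ^ (q : ℕ))
    (hN : ∃ g : FN M1, normAlpha M1 (q : ℕ) u = g ^ (q : ℕ)) {t : ℝ} (ht : 0 < t)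
    (h : (wZ q S.hc).GE (b - 1) t) :
    ∃ k : FN (M1 * (q : ℕ)), k ≠ 0 ∧ (wG q (M1 * (q : ℕ))).GE (u * k ^ (q : ℕ) - 1)
      (min (t + 1 / (((q : ℕ) : ℝ) - 1)) ((q : ℕ) * t)) := by
  have hq1 : (1 : ℝ) < ((q : ℕ) : ℝ) := by exact_mod_cast q.2.one_lt
  have hb0 : b ≠ 0 := by
    rw [hb]
    exact mul_ne_zero hu (pow_ne_zero _ hl)
  have h' : (wG q (M1 * (q : ℕ))).GE (Wq S.hc b - 1) t := by
    have := (wZ_GE_iff S.hc).1 h
    rwa [map_sub, map_one] at this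
  have h1 := GE_norm_div S.hc hb0 ht h'
  have ht'pos : 0 < min (t + 1 / (((q : ℕ) : ℝ) - 1)) ((q : ℕ) * t) := by
    apply lt_min
    · have : 0 < 1 / (((q : ℕ) : ℝ) - 1) := div_pos one_pos (by linarith)
      linarith
    · exact mul_pos (by linarith) ht
  obtain ⟨g, hg⟩ := hN
  have e1 : heckeAlphaBar Kb M1 (q : ℕ) (normAlpha M1 (q : ℕ) b) =
      (heckeAlphaBar Kb M1 (q : ℕ) (g * normAlpha M1 (q : ℕ) l)) ^ (q : ℕ) := by
    rw [hb, map_mul, map_pow, hg, ← mul_pow, map_pow]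
  rw [e1] at h1
  generalize heckeAlphaBar Kb M1 (q : ℕ) (g * normAlpha M1 (q : ℕ) l) = m at h1
  have hm0 : m ≠ 0 := by
    intro h0
    rw [h0, zero_pow q.2.ne_zero, zero_div, zero_sub] at h1
    have := h1.le_w (neg_ne_zero.2 one_ne_zero)
    rw [RVal.w_neg, RVal.w_one] at this
    linarith
  have h2 := GE_inv_sub_one ht'pos h1
  refine ⟨l / m, div_ne_zero hl hm0, ?_⟩
  have e2 : u * (l / m) ^ (q : ℕ) = (m ^ (q : ℕ) / b)⁻¹ := by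
    rw [hb, inv_div, div_pow, mul_div_assoc]
  rw [e2]
  exact h2

/-- [S33/M-B1a] -/
theorem exists_deep_pair {u : FN (M1 * (q : ℕ))} (hu1 : GT2 S.hc (u - 1) 0)
    (hN1 : ∃ g : FN M1, normAlpha M1 (q : ℕ) u = g ^ (q : ℕ))
    (hN2 : ∃ g : FN M1, normAlpha M1 (q : ℕ) (Wq S.hc u) = g ^ (q : ℕ)) (B : ℝ) :
    ∃ k l : FN (M1 * (q : ℕ)), k ≠ 0 ∧ l ≠ 0 ∧
      (wG q (M1 * (q : ℕ))).GE (u * k ^ (q : ℕ) - 1) B ∧ (wZ q S.hc).GE (u * l ^ (q : ℕ) - 1) B := by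
  have hq1 : (1 : ℝ) < ((q : ℕ) : ℝ) := by exact_mod_cast q.2.one_lt
  have hu0 : u ≠ 0 := (EQ_zero_of_GT_sub_one hu1.1).1
  have hWu0 : Wq S.hc u ≠ 0 := (_root_.map_ne_zero _).2 hu0
  obtain ⟨c, -, hcpos, hge⟩ := exists_const_of_GT2 hu1
  refine b1aAux_iter (P := fun t => ∃ k l : FN (M1 * (q : ℕ)), k ≠ 0 ∧ l ≠ 0 ∧
      (wG q (M1 * (q : ℕ))).GE (u * k ^ (q : ℕ) - 1) t ∧ (wZ q S.hc).GE (u * l ^ (q : ℕ) - 1) t)
    (t₀ := (wq q).w c) (c := 1 / (((q : ℕ) : ℝ) - 1)) (p := ((q : ℕ) : ℝ)) ?_ hcpos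
    (div_pos one_pos (by linarith)) hq1 ?_ ?_ B
  · rintro s t hst ⟨k, l, hk, hl, h1, h2⟩
    exact ⟨k, l, hk, hl, h1.mono hst, h2.mono hst⟩
  · refine ⟨1, 1, one_ne_zero, one_ne_zero, ?_, ?_⟩
    · rw [one_pow, mul_one]
      exact hge.1
    · rw [one_pow, mul_one]
      exact hge.2
  · rintro t ht ⟨k, l, hk, hl, h1, h2⟩
    obtain ⟨k', hk', h1'⟩ := deep_step S hu0 hl rfl hN1 ht h2
    have h3 : (wZ q S.hc).GE (Wq S.hc u * (Wq S.hc k) ^ (q : ℕ) - 1) t := by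
      rw [wZ_GE_iff, map_sub, map_mul, map_pow, map_one, Wq_Wq, Wq_Wq]
      exact h1
    obtain ⟨k'', hk'', h2'⟩ := deep_step S hWu0 ((_root_.map_ne_zero _).2 hk) rfl hN2 ht h3
    refine ⟨k', Wq S.hc k'', hk', (_root_.map_ne_zero _).2 hk'', h1', ?_⟩
    rw [wZ_GE_iff, map_sub, map_mul, map_pow, map_one, Wq_Wq]
    exact h2'

/-- [S33/M-B1b] **(B1)** -/
theorem exists_deep {u : FN (M1 * (q : ℕ))} (hu1 : GT2 S.hc (u - 1) 0)
    (hN1 : ∃ g : FN M1, normAlpha M1 (q : ℕ) u = g ^ (q : ℕ))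
    (hN2 : ∃ g : FN M1, normAlpha M1 (q : ℕ) (Wq S.hc u) = g ^ (q : ℕ)) (B : ℝ) :
    ∃ h : FN (M1 * (q : ℕ)), h ≠ 0 ∧ GE2 S.hc (u * h ^ (q : ℕ) - 1) B := by
  obtain ⟨k, l, hk, hl, h1, h2⟩ := exists_deep_pair S hu1 hN1 hN2 (max B 1)
  obtain ⟨h, hh0, h3, h4⟩ := b1bAux (weak_approx S) (q : ℕ) hk hl (le_max_right B 1) h1 h2
  exact ⟨h, hh0, h3.mono (le_max_left _ _), h4.mono (le_max_left _ _)⟩

end Fermat.Agent.S33.M
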