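import Fermat.Agent.S33.M.Imp
import Fermat.Agent.S33.Geo.Defs

/-!
# S33/M : (F) inertia acts by the cyclotomic character on deep classes of level `M1 p`
keys `S33/M-Fa` (`phi_mem`, ~80 lines), `S33/M-Fb` (`phi_cong`, ~250), `S33/M-Fc` (`v_cong`, `deep_inertia`, ~250)

`e₁ = 1/(p-1)`, `e_p = p/(p-1)`, `ζ` a primitive `p`-th root of unity, `ϖ = ζ - 1`, `w ϖ = e₁` (`w_pi`).  `σ ∈ Iq q`, `Cyc p σ c` (`σ = (·)^c` on `μ_p`).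
`u ≡ 1 (> e_p)` on both components, `p ∣ div u`;  `f ∈ I_b(u)`, `f ≡ 1 (e₁)` (`exists_II_pi`).
      `v := gal σ u * (u⁻¹)^c`,        `φ := gal σ f * (f^(p-1) * u)^c`.

## M-Fa : `φ^p v ∈ C_b`
`γ := f^p u ∈ C_b`.  `φ^p v = gal σ γ * (γ^(p-1))^c`  [`(f^(p-1) u)^p u⁻¹ = f^(p(p-1)) u^(p-1) = γ^(p-1)`; `field_simp`/`ring` after `u ≠ 0`; write `p = (p-1) + 1`].  `gal_mem_C0 S (Iq_le_Dq q hσ) b`.

## M-Fb : `φ ≡ 1 (> e₁)`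
`f = 1 + ϖ h`, `GE2 h 0` (`GE2_iff S` with `c = ϖ`).
 (i) `gal σ f = 1 + σ(ϖ) gal σ h` (`gal_algebraMap`); `σ ϖ = ζ^c - 1`; `σ ϖ / ϖ ≡ c (> 0)` (`GT_sigma_pi`); `gal σ h ≡ h (> 0)` (`GT2_gal_sub`); so `gal σ f - 1 - c ϖ h` is `GT2 … e₁`.
 (ii) `f^(p-1) - 1 - (p-1) ϖ h ∈ ϖ² VV` [`(1+y)^n - 1 - n y = y² (…)`: `add_pow`, or induction on `n`]: value `≥ 2 e₁ > e₁`; `p ϖ h` has value `≥ 1 + e₁`; `u - 1` has value `> e_p > e₁`: `g := f^(p-1) u` satisfies `g - 1 + ϖ h` is `GT2 … e₁`.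
 (iii) `g = 1 - ϖ h + (> e₁)` `⟹` `g^c - 1 + c ϖ h` is `GT2 … e₁` (induction on `c`; all factors are integral, `(ϖ h)² ≥ 2 e₁`).
 (iv) product: `φ - 1 = (gal σ f - 1 - cϖh) g^c + (1 + cϖh)(g^c - 1 + cϖh) - (cϖh)²`… every term is `GT2 … e₁`.
## M-Fc
`v_cong`: `gal σ u ≡ 1`, `u⁻¹ ≡ 1`, `(u⁻¹)^c ≡ 1` `(> e_p)`: `GT2.gal`, `GT_inv_sub_one`, `GT_mul_sub_one` (induction on `c`) for both valuations (`Wq` is a ring hom).
`deep_inertia`: `ζ` primitive (`HasEnoughRootsOfUnity`/`IsAlgClosed`; `cycAux_exists_prim` in `Val/Cyc.lean`), `ϖ : AA q`, `ϖ ∈ 𝔪`.  `f_b` from `exists_II_pi S b hu hu1.toGE2`, `φ_b`, `v`.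
`exists_const_of_GT2`: constants `c₀, c₁, c₂` with `w c₀ > e_p`, `GE2 (v - 1) (w c₀)`, `w c_i > e₁`, `GE2 (φ_b - 1) (w c_i)`.  Let `c'` be the one of `c₀/ϖ^p, c₁/ϖ, c₂/ϖ` of smallest value (`> 0`, so `c' ∈ 𝔪`).
`congV_iff S`: `CongV (ϖ^p c') (v - 1)`, `CongV (ϖ c') (φ_b - 1)`.   `cech_p (Arch.arch _ S.hq S.hA) (transcendental_τM S) (isGen_τM S) o (fgBarM S false) p …` (`obtain ⟨o⟩ := (VV_eq_and_onb S).2`; `S.θM false = S.τM`, `S.θM true = S.τM⁻¹`):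
`v = g^p`, so `gal σ u = u^c g^p`.
-/

set_option autoImplicit false
set_option synthInstance.maxHeartbeats 400000

open HahnSeries ModularCurve AlgebraicCurve Polynomial Fermat.Agent.S24 Fermat.Agent.S29 Fermat.Agent.S18
  Fermat.Agent.ES Fermat.Agent.ES.Alg Fermat.Agent.S34.Mod Fermat.Agent.S34.T Fermat.Agent.S05
  Fermat.Agent.S55.B ExtCitation
open Fermat.Agent.S55 (Dq Iq)

noncomputable section

namespace Fermat.Agent.S33.M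

section AbsF

variable {F : Type*} [Field F]

theorem faAux_id {u f : F} (hu : u ≠ 0) (G₁ G₂ : F) (p c : ℕ) (hp : 0 < p) :
    (G₁ * (f ^ (p - 1) * u) ^ c) ^ p * (G₂ * u⁻¹ ^ c) =
      G₁ ^ p * G₂ * ((f ^ p * u) ^ (p - 1)) ^ c := by
  have e1 : (f ^ (p - 1) * u) ^ p * u⁻¹ = (f ^ p * u) ^ (p - 1) := by
    obtain ⟨n, rfl⟩ : ∃ n, p = n + 1 := ⟨p - 1, (Nat.sub_add_cancel hp).symm⟩
    rw [Nat.add_sub_cancel, mul_pow, mul_pow, pow_succ u n, ← pow_mul, ← pow_mul,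
      mul_comm n (n + 1)]
    field_simp
  calc (G₁ * (f ^ (p - 1) * u) ^ c) ^ p * (G₂ * u⁻¹ ^ c)
      = G₁ ^ p * G₂ * ((f ^ (p - 1) * u) ^ p * u⁻¹) ^ c := by ring
    _ = _ := by rw [e1]

variable {w : RVal F} {e : ℝ}

/-- `x ≡ 1 + a` modulo `> e`, `a` of value `≥ e` -/
structure Ap (w : RVal F) (e : ℝ) (x a : F) : Prop where
  ha : w.GE a e
  hx : w.GT (x - 1 - a) e

theorem Ap.int (he : 0 < e) {x a : F} (h : Ap w e x a) : w.GE x 0 := by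
  have h1 := (((RVal.EQ_one (v := w)).GE le_rfl).add (h.ha.mono he.le)).add (h.hx.GE he.le)
  have e1 : 1 + a + (x - 1 - a) = x := by ring
  rwa [e1] at h1

theorem Ap.mul (he : 0 < e) {x a x' a' : F} (h : Ap w e x a) (h' : Ap w e x' a') :
    Ap w e (x * x') (a + a') := by
  refine ⟨h.ha.add h'.ha, ?_⟩
  have e1 : x * x' - 1 - (a + a') = (x - 1 - a) * x' + (1 + a) * (x' - 1 - a') + a * a' := by ring
  rw [e1]
  have h1 : w.GT ((x - 1 - a) * x') e := by simpa using h.hx.mul_GE (h'.int he)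
  have h2 : w.GT ((1 + a) * (x' - 1 - a')) e := by
    have := (((RVal.EQ_one (v := w)).GE le_rfl).add (h.ha.mono he.le)).mul_GT h'.hx
    simpa using this
  have h3 : w.GT (a * a') e := (h.ha.mul h'.ha).GT (by linarith)
  exact (h1.add h2).add h3

theorem Ap.one (e : ℝ) : Ap w e 1 0 := ⟨RVal.GE_zero _, by simpa using RVal.GT_zero (v := w) e⟩

theorem Ap.pow (he : 0 < e) {x a : F} (h : Ap w e x a) (n : ℕ) : Ap w e (x ^ n) (n * a) := by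
  induction n with
  | zero => simpa using Ap.one (w := w) e
  | succ n ih =>
    have := ih.mul he h
    rw [pow_succ]
    convert this using 1
    push_cast
    ring

theorem fbAux (he : 0 < e) {y F₁ u : F} (p c : ℕ) (hp : 0 < p) (hy : w.GE y e)
    (hpw : w.GT (p : F) 0) (hF₁ : w.GT (F₁ - 1 - c * y) e) (hu : w.GT (u - 1) e) :
    w.GT (F₁ * ((1 + y) ^ (p - 1) * u) ^ c - 1) e := by
  have hc : w.GE (c : F) 0 := RVal.GE_natCast c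
  have h1 : Ap w e (1 + y) y := ⟨hy, by simpa using RVal.GT_zero (v := w) e⟩
  have h2 : Ap w e u 0 := ⟨RVal.GE_zero _, by simpa using hu⟩
  have h3 : Ap w e F₁ (c * y) := ⟨by simpa using hc.mul hy, hF₁⟩
  have h4 := h3.mul he (((h1.pow he (p - 1)).mul he h2).pow he c)
  have e1 : (c : F) * y + c * (((p - 1 : ℕ) : F) * y + 0) = p * (c * y) := by
    obtain ⟨n, rfl⟩ : ∃ n, p = n + 1 := ⟨p - 1, (Nat.sub_add_cancel hp).symm⟩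
    rw [Nat.add_sub_cancel]
    push_cast
    ring
  have h5 := h4.hx
  rw [e1] at h5
  have h6 : w.GT ((p : F) * (c * y)) e := by simpa using hpw.mul_GE h3.ha
  have := h5.add h6
  rwa [sub_add_cancel] at this

theorem fcAux_pow {t : ℝ} (ht : 0 ≤ t) {x : F} (hx : w.GT (x - 1) t) (n : ℕ) :
    w.GT (x ^ n - 1) t := by
  induction n with
  | zero => simpa using RVal.GT_zero (v := w) t
  | succ n ih =>
    rw [pow_succ]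
    exact GT_mul_sub_one ht ih hx

theorem fcAux {t : ℝ} (ht : 0 ≤ t) {u G : F} (hu : w.GT (u - 1) t) (hG : w.GT (G - 1) t) (c : ℕ) :
    w.GT (G * u⁻¹ ^ c - 1) t :=
  GT_mul_sub_one ht hG (fcAux_pow ht (GT_inv_sub_one ht hu) c)

omit w e in
theorem fcAux_fin {G u g : F} (hu : u ≠ 0) (c p : ℕ) (hg : G * u⁻¹ ^ c = g ^ p) :
    G = u ^ c * g ^ p := by
  rw [← hg, mul_comm, mul_assoc, ← mul_pow, inv_mul_cancel₀ hu, one_pow, mul_one]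

theorem fcAux_min3 (w : RVal F) (a b c : F) : ∃ d : F, (d = a ∨ d = b ∨ d = c) ∧ w.w d ≤ w.w a ∧
    w.w d ≤ w.w b ∧ w.w d ≤ w.w c := by
  rcases le_total (w.w a) (w.w b) with h1 | h1
  · rcases le_total (w.w a) (w.w c) with h2 | h2
    · exact ⟨a, Or.inl rfl, le_rfl, h1, h2⟩
    · exact ⟨c, Or.inr (Or.inr rfl), h2, h2.trans h1, le_rfl⟩
  · rcases le_total (w.w b) (w.w c) with h2 | h2
    · exact ⟨b, Or.inr (Or.inl rfl), h1, le_rfl, h2⟩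
    · exact ⟨c, Or.inr (Or.inr rfl), h2.trans h1, h2, le_rfl⟩

end AbsF

variable {q : Nat.Primes} {M1 r : ℕ} [NeZero M1] [NeZero (q : ℕ)] [NeZero r]
variable (S : Setup M1 (q : ℕ) r (AA q))

/-- [S33/M-Fa] -/
theorem phi_mem (b : Bool) {u f : FN (M1 * (q : ℕ))} (hu : u ≠ 0) (hf : f ∈ IIb S b u) {σ : GQ}
    (hσ : σ ∈ Iq q) (c : ℕ) :
    gal (M1 * (q : ℕ)) σ f * (f ^ ((q : ℕ) - 1) * u) ^ c ∈
      IIb S b (gal (M1 * (q : ℕ)) σ u * u⁻¹ ^ c) := by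
  have hγ : f ^ (q : ℕ) * u ∈ KL.C0 (AA q) (S.θM b) (FN (M1 * (q : ℕ))) := hf
  have h1 := gal_mem_C0 S (Iq_le_Dq q hσ) b hγ
  show (gal (M1 * (q : ℕ)) σ f * (f ^ ((q : ℕ) - 1) * u) ^ c) ^ (q : ℕ) *
    (gal (M1 * (q : ℕ)) σ u * u⁻¹ ^ c) ∈ KL.C0 (AA q) (S.θM b) (FN (M1 * (q : ℕ)))
  rw [faAux_id hu _ _ _ c q.2.pos, ← map_pow, ← map_mul]
  exact mul_mem h1 (pow_mem (pow_mem hγ _) _)

/-- [S33/M-Fb] -/
theorem phi_cong {u f : FN (M1 * (q : ℕ))}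
    (hu1 : GT2 S.hc (u - 1) (((q : ℕ) : ℝ) / (((q : ℕ) : ℝ) - 1)))
    (hf1 : GE2 S.hc (f - 1) (1 / (((q : ℕ) : ℝ) - 1))) {σ : GQ} (hσ : σ ∈ Iq q) {c : ℕ}
    (hc : Cyc (q : ℕ) σ c) :
    GT2 S.hc (gal (M1 * (q : ℕ)) σ f * (f ^ ((q : ℕ) - 1) * u) ^ c - 1)
      (1 / (((q : ℕ) : ℝ) - 1)) := by
  have hq1 : (1 : ℝ) < ((q : ℕ) : ℝ) := by exact_mod_cast q.2.one_lt
  have he : 0 < 1 / (((q : ℕ) : ℝ) - 1) := div_pos one_pos (by linarith)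
  obtain ⟨ζ, hζ⟩ := cycAux_exists_prim q
  have hϖ := w_pi q hζ
  have hf1' : GE2 S.hc (f - 1) ((wq q).w (ζ - 1)) := by rw [hϖ.2]; exact hf1
  obtain ⟨h, hh, hfh⟩ := (GE2_iff S hϖ.1).1 hf1'
  have hf : f = 1 + algebraMap Kb (FN (M1 * (q : ℕ))) (ζ - 1) * h := by rw [← hfh]; ring
  have hy2 : GE2 S.hc (algebraMap Kb (FN (M1 * (q : ℕ))) (ζ - 1) * h) (1 / (((q : ℕ) : ℝ) - 1)) := by
    rw [← hfh]; exact hf1
  have k1 : (wq q).GT (σ (ζ - 1) - c * (ζ - 1)) (1 / (((q : ℕ) : ℝ) - 1)) := by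
    have h1 := GT_sigma_pi q hζ (hc ζ hζ.pow_eq_one)
    have h2 := h1.mul_GE (hϖ.GE le_rfl)
    have e1 : (σ (ζ - 1) / (ζ - 1) - (c : Qb)) * (ζ - 1) = σ (ζ - 1) - c * (ζ - 1) := by
      have := hϖ.1
      field_simp
    rw [e1, zero_add] at h2
    exact h2
  have k2 : (wq q).GE ((c : Qb) * (ζ - 1)) (1 / (((q : ℕ) : ℝ) - 1)) := by
    have := (RVal.GE_natCast (v := wq q) c).mul (hϖ.GE le_rfl)
    rwa [zero_add] at this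
  have hF₁ : GT2 S.hc (gal (M1 * (q : ℕ)) σ f - 1 -
      c * (algebraMap Kb (FN (M1 * (q : ℕ))) (ζ - 1) * h)) (1 / (((q : ℕ) : ℝ) - 1)) := by
    have e1 : gal (M1 * (q : ℕ)) σ f - 1 - c * (algebraMap Kb (FN (M1 * (q : ℕ))) (ζ - 1) * h) =
        algebraMap Kb (FN (M1 * (q : ℕ))) (σ (ζ - 1) - c * (ζ - 1)) * gal (M1 * (q : ℕ)) σ h +
        (gal (M1 * (q : ℕ)) σ h - h) * algebraMap Kb (FN (M1 * (q : ℕ))) ((c : Qb) * (ζ - 1)) := by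
      have a1 : algebraMap Kb (FN (M1 * (q : ℕ))) (σ (ζ - 1) - c * (ζ - 1)) =
          algebraMap Kb (FN (M1 * (q : ℕ))) (σ (ζ - 1)) -
            c * algebraMap Kb (FN (M1 * (q : ℕ))) (ζ - 1) := by
        rw [map_sub, map_mul, map_natCast]
      have a2 : algebraMap Kb (FN (M1 * (q : ℕ))) ((c : Qb) * (ζ - 1)) =
          c * algebraMap Kb (FN (M1 * (q : ℕ))) (ζ - 1) := by
        rw [map_mul, map_natCast]
      rw [a1, a2, hf, map_add, map_one, map_mul, gal_algebraMap]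
      ring
    rw [e1]
    have t1 := (GT2_algebraMap (hc := S.hc) k1).mul_GE2 (GE2.gal S (Iq_le_Dq q hσ) hh)
    have t2 := (GT2_gal_sub S hσ hh).mul_GE2 (GE2_algebraMap (hc := S.hc) k2)
    rw [add_zero] at t1
    rw [zero_add] at t2
    exact t1.add t2
  have hu' : GT2 S.hc (u - 1) (1 / (((q : ℕ) : ℝ) - 1)) :=
    hu1.mono (div_le_div_of_nonneg_right hq1.le (by linarith))
  have hpw : GT2 S.hc (((q : ℕ) : FN (M1 * (q : ℕ)))) 0 := by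
    have := GT2_algebraMap (hc := S.hc) (c := ((q : ℕ) : Qb)) (t := 0)
      (Or.inr (by rw [wq_q]; exact one_pos))
    rwa [map_natCast] at this
  have g1 := fbAux he (q : ℕ) c q.2.pos hy2.1 hpw.1 hF₁.1 hu'.1
  have g2 := fbAux he (q : ℕ) c q.2.pos hy2.2 hpw.2 hF₁.2 hu'.2
  rw [← hf] at g1 g2
  exact ⟨g1, g2⟩

/-- [S33/M-Fc] -/
theorem v_cong {u : FN (M1 * (q : ℕ))} {t : ℝ} (ht : 0 ≤ t) (hu1 : GT2 S.hc (u - 1) t) {σ : GQ}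
    (hσ : σ ∈ Iq q) (c : ℕ) : GT2 S.hc (gal (M1 * (q : ℕ)) σ u * u⁻¹ ^ c - 1) t := by
  have h1 : GT2 S.hc (gal (M1 * (q : ℕ)) σ u - 1) t := by
    have := GT2.gal S (Iq_le_Dq q hσ) hu1
    rwa [map_sub, map_one] at this
  exact ⟨fcAux ht hu1.1 h1.1 c, fcAux ht hu1.2 h1.2 c⟩

theorem fcAux_lift {d : Qb} (hd : (wq q).GT d 0) :
    ∃ d' : AA q, (d' : Qb) = d ∧ d' ∈ IsLocalRing.maximalIdeal (AA q) := by
  rw [GT_zero_iff_mem_nonunits, ValuationSubring.mem_nonunits_iff_exists_mem_maximalIdeal] at hd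
  obtain ⟨h1, h2⟩ := hd
  exact ⟨⟨d, h1⟩, rfl, h2⟩

/-- [S33/M-Fc] **(F)** -/
theorem deep_inertia (hq2 : (q : ℕ) ≠ 2) {u : FN (M1 * (q : ℕ))}
    (hu : PDiv Kb (FN (M1 * (q : ℕ))) (q : ℕ) u)
    (hu1 : GT2 S.hc (u - 1) (((q : ℕ) : ℝ) / (((q : ℕ) : ℝ) - 1))) {σ : GQ} (hσ : σ ∈ Iq q) {c : ℕ}
    (hc : Cyc (q : ℕ) σ c) : PEq (q : ℕ) (gal (M1 * (q : ℕ)) σ u) (u ^ c) := by
  have hq1 : (1 : ℝ) < ((q : ℕ) : ℝ) := by exact_mod_cast q.2.one_lt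
  have hq1' : (0 : ℝ) < ((q : ℕ) : ℝ) - 1 := by linarith
  have he : 0 < 1 / (((q : ℕ) : ℝ) - 1) := div_pos one_pos hq1'
  have hep : (0 : ℝ) ≤ ((q : ℕ) : ℝ) / (((q : ℕ) : ℝ) - 1) := (div_pos (by linarith) hq1').le
  obtain ⟨ζ, hζ⟩ := cycAux_exists_prim q
  have hϖ := w_pi q hζ
  have hϖ0 := hϖ.1
  have hu0 : u ≠ 0 := hu.1
  obtain ⟨f₀, hf₀, hf₀1⟩ := exists_II_pi S false hu hu1.toGE2
  obtain ⟨f₁, hf₁, hf₁1⟩ := exists_II_pi S true hu hu1.toGE2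
  have hm₀ := phi_mem S false hu0 hf₀ hσ c
  have hm₁ := phi_mem S true hu0 hf₁ hσ c
  obtain ⟨a₀, ha₀, ha₀', hv'⟩ := exists_const_of_GT2 (v_cong S hep hu1 hσ c)
  obtain ⟨a₁, ha₁, ha₁', hc₀'⟩ := exists_const_of_GT2 (phi_cong S hu1 hf₀1 hσ hc)
  obtain ⟨a₂, ha₂, ha₂', hc₁'⟩ := exists_const_of_GT2 (phi_cong S hu1 hf₁1 hσ hc)
  have hϖq : (wq q).w ((ζ - 1) ^ (q : ℕ)) = ((q : ℕ) : ℝ) / (((q : ℕ) : ℝ) - 1) := by
    rw [RVal.w_pow hϖ0, hϖ.2]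
    ring
  have w0 : (wq q).w (a₀ / (ζ - 1) ^ (q : ℕ)) =
      (wq q).w a₀ - ((q : ℕ) : ℝ) / (((q : ℕ) : ℝ) - 1) := by
    rw [RVal.w_div ha₀ (pow_ne_zero _ hϖ0), hϖq]
  have w1 : (wq q).w (a₁ / (ζ - 1)) = (wq q).w a₁ - 1 / (((q : ℕ) : ℝ) - 1) := by
    rw [RVal.w_div ha₁ hϖ0, hϖ.2]
  have w2 : (wq q).w (a₂ / (ζ - 1)) = (wq q).w a₂ - 1 / (((q : ℕ) : ℝ) - 1) := by
    rw [RVal.w_div ha₂ hϖ0, hϖ.2]
  obtain ⟨d, hd, hd0, hd1, hd2⟩ := fcAux_min3 (wq q) (a₀ / (ζ - 1) ^ (q : ℕ)) (a₁ / (ζ - 1))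
    (a₂ / (ζ - 1))
  have hdne : d ≠ 0 := by
    rcases hd with rfl | rfl | rfl
    · exact div_ne_zero ha₀ (pow_ne_zero _ hϖ0)
    · exact div_ne_zero ha₁ hϖ0
    · exact div_ne_zero ha₂ hϖ0
  have hdpos : 0 < (wq q).w d := by
    rcases hd with rfl | rfl | rfl
    · rw [w0]; linarith
    · rw [w1]; linarith
    · rw [w2]; linarith
  obtain ⟨ϖ', hϖ', hϖm⟩ := fcAux_lift (q := q) (d := ζ - 1) (hϖ.GT he)
  obtain ⟨c', hc', hc'm⟩ := fcAux_lift (q := q) (d := d) (Or.inr hdpos)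
  have hϖ'0 : ϖ' ≠ 0 := fun h => hϖ0 (by rw [← hϖ', h]; rfl)
  have hc'0 : c' ≠ 0 := fun h => hdne (by rw [← hc', h]; rfl)
  have hV : CongV (AA q) S.τM (FN (M1 * (q : ℕ))) (ϖ' ^ (q : ℕ) * c')
      (gal (M1 * (q : ℕ)) σ u * u⁻¹ ^ c - 1) := by
    rw [congV_iff S (mul_ne_zero (pow_ne_zero _ hϖ'0) hc'0)]
    refine hv'.mono ?_
    have e1 : ((ϖ' ^ (q : ℕ) * c' : AA q) : Kb) = (ζ - 1) ^ (q : ℕ) * d := by
      push_cast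
      rw [hϖ', hc']
    rw [e1, (wq q).map_mul _ _ (pow_ne_zero _ hϖ0) hdne, hϖq]
    linarith
  have e2 : ((ϖ' * c' : AA q) : Kb) = (ζ - 1) * d := by
    push_cast
    rw [hϖ', hc']
  have h₀ : CongV (AA q) S.τM (FN (M1 * (q : ℕ))) (ϖ' * c')
      (gal (M1 * (q : ℕ)) σ f₀ * (f₀ ^ ((q : ℕ) - 1) * u) ^ c - 1) := by
    rw [congV_iff S (mul_ne_zero hϖ'0 hc'0)]
    refine hc₀'.mono ?_
    rw [e2, (wq q).map_mul _ _ hϖ0 hdne, hϖ.2]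
    linarith
  have h₁ : CongV (AA q) S.τM (FN (M1 * (q : ℕ))) (ϖ' * c')
      (gal (M1 * (q : ℕ)) σ f₁ * (f₁ ^ ((q : ℕ) - 1) * u) ^ c - 1) := by
    rw [congV_iff S (mul_ne_zero hϖ'0 hc'0)]
    refine hc₁'.mono ?_
    rw [e2, (wq q).map_mul _ _ hϖ0 hdne, hϖ.2]
    linarith
  obtain ⟨o⟩ := (VV_eq_and_onb S).2
  obtain ⟨g, hg⟩ := cech_p (Arch.arch _ S.hq S.hA) (transcendental_τM S) (isGen_τM S) o
    (fgBarM S false) (q : ℕ) q.2 hq2 ζ hζ ϖ' hϖ' hϖm c' hc'm _ _ _ hV h₀ h₁ hm₀ hm₁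
  exact ⟨g, fcAux_fin hu0 c (q : ℕ) hg⟩

end Fermat.Agent.S33.M
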