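import Fermat.Agent.S33.M1.Main
import Fermat.Agent.S33.M.Deep
import Fermat.Agent.S33.M.F
import Fermat.Agent.S35.Nu
import Fermat.Agent.S35.Idem

/-!
# S33/M : Theorem G at level `M = M1 p`          CONTRACT of the layer `S33/M` (sub-owner wanted)

`S : Setup M1 q r (AA q)`, `F = FN (M1 q)`, `w∞ = wG q (M1 q)`, `w₀ = wZ q S.hc` (`= w∞ ∘ Wq`), `C_b = KL.C0 (AA q) (S.θM b) F`, `VV = V2 = {w∞ ≥ 0, w₀ ≥ 0}` (`S34.Mod.VV_eq`), `twoComp S`, `nodalChart S b`.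
"`x ≡ y (t)`" means BOTH `w∞.GE (x - y) t` and `w₀.GE (x - y) t`.     `e₁ = 1/(p-1)`, `e_p = p/(p-1)`, `ϖ = ζ - 1`.

## Plan
(M0) [bridge] `CongV (AA q) S.τM F a x ↔ w∞.GE x (w a) ∧ w₀.GE x (w a)`; `SmV ↔ GT 0` on both; `res₁ = resInf`, `res₂ = resInf ∘ Wq` (`res₁_apply`, `res₂_apply`, `VV_eq`, `GE_iff`).
(M1) [deep_of_norm]  `u ≡ 1 (>0)`, `Nm u = g₁^p`, `Nm (Wq u) = g₂^p` ⟹ `∀ B, ∃ g ≠ 0, u g^p ≡ 1 (B)`.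
   (a) step: `P(t) := (∃ g ≠ 0, w∞.GE (u g^p - 1) t) ∧ (∃ g' ≠ 0, w∞.GE (Wq u · g'^p - 1) t)`;  `P(t)`, `t > 0` ⟹ `P(min (t + e₁, p t))`.
       [`x := u · (Wq g')^p`, `Wq x = Wq u · g'^p ≡ 1 (t)`; `GE_norm_div`: `al(Nm x)/x ≡ 1 (t')`; `Nm x = (g₁ Nm(Wq g'))^p`; so `u · (Wq g' / al(..))^p = (al(Nm x)/x)⁻¹ ≡ 1 (t')` (`GE_inv_sub_one`).  Symmetric with `x := Wq u · (Wq g)^p`.]
   (b) `t_{k+1} ≥ t_k + min (e₁, t₀)`: `P(B)` for all `B`.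
   (c) weak approximation: `∀ x y ≠ 0, ∀ B, ∃ z ≠ 0, w∞.GE (z/x - 1) B ∧ w₀.GE (z/y - 1) B`.   [`e = (twoComp S).e`: `w∞(e - 1) > 0`, `w₀(e) > 0`, `e ∈ V2`; `E_n = 1 - (1 - e^n)^n`: `w∞(E_n - 1) ≥ n w∞(1 - e)`, `w₀(E_n) ≥ n w₀(e)`;
       `z = x E_n + y (1 - E_n)`.]   Apply to `x = g`, `y = Wq g'`.
(M2) [exists_II]  `PDiv p u`, `u ≡ 1 (>0)` ⟹ for each chart `b`: `∃ f ≡ 1 (>0)`, `f^p u ∈ C_b`.
   [`S34.T.T1` (valid for ALL `n > 0`; for `b = true` use `TwoComp.inv`, `NodalChart.inv`, `ONB.inv` as in `S34.T.tor`) with `w = u`, `b₁ = b₂ = 1`: `f₁ ∈ II(u)`, `res₁ f₁ = 1`, `res₂ f₁ =: ḡ`.  `f₁^p u ∈ C_b` has residues `(1, ḡ^p)`; so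
    `(0, (ḡ - 1)^p)` is the residue of an element of `C_b`; `normal₂`: `ḡ - 1 = res₂ c₂`; `radical₂`: `∃ c' ∈ C_b`, residues `(0, ḡ - 1)`; second part of `T1`: `f₂ ∈ II(u)` with residues `(0, ḡ - 1)`; `f = f₁ - f₂`.]
(M3) [PM]  `x ∈ VV`, `y ∈ C_b`, `x^p ≡ y (>0)` ⟹ `∃ d ∈ C_b, x ≡ d (>0)`.   [`normal₁`: `c₁`, `res₁ c₁ = res₁ x`; `z = res₂ (x - c₁)`, `z^p = res₂ (y - c₁^p)`, `res₁ (y - c₁^p) = 0`; `normal₂`, `radical₂`.  Abstract, in the language of `S34/T/Iface.lean`.]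
(M4) [RI]  `u ≡ 1 (B)`, `B > e_p`; `f ≡ 1 (>0)`, `f^p u ∈ C_b` ⟹ `∃ f' ≡ 1 (e₁)`, `f'^p u ∈ C_b`.
   [all data rational over some `H` of finite index (`exists_common_rat`); depth `s = min (w∞(f-1), w₀(f-1)) ∈ Γ_H` (`wG_rat`, `Wq_mem_ratF`); if `s < e₁`: `f = 1 + b g`, `b ∈ Fx H`, `g ∈ VV`; `(f^p u - 1)/b^p ∈ C_b` is `≡ g^p`; (M3): `g ≡ d`; `d` rational by
    `exists_rat_approx₂` (`Λ = B0`); `f (1 - b d)` has depth `> s`; discreteness (`w_of_relIndex`).]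
(M5) [deep_inertia]  `PDiv p u`, `u ≡ 1 (B)`, `B ≥ e_p + 1`, `σ ∈ Iq q`, `Cyc p σ c` ⟹ `gal σ u ~ u^c`.
   [(M2), (M4): `f_b = 1 + ϖ f'_b`, `f'_b ∈ VV`.  `f̃_b := f_b^(p-1) u`: `f̃_b^p u⁻¹ = (f_b^p u)^(p-1) ∈ C_b`.  `v := gal σ u · (u⁻¹)^c`, `φ_b := gal σ f_b · f̃_b^c`: `φ_b^p v = gal σ (f_b^p u) · ((f_b^p u)^(p-1))^c ∈ C_b` (`gal_mem_C0`).
    `gal σ f_b ≡ 1 + c ϖ f'_b (> e₁)` (`GT_sigma_pi`, `GT_gal_sub`, `gal_Wq`), `f̃_b ≡ 1 - ϖ f'_b (> e₁)`, so `φ_b ≡ 1 (> e₁)`; `v ≡ 1 (> e_p)`; `cech_p` (`VV_eq_and_onb`, `(nodalChart S false).fg`).]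
(M6) assembly `thmG_M`:  `y = Nm u` and `y' = Nm (Wq u)` satisfy the hypotheses of `thmG_M1` (`PDiv` of a norm, `GT_normAlpha_sub_one`, `gal_normAlpha`, `gal_Wq`): both are `p`-th powers.  (M1): `u' = u g^p ≡ 1 (e_p + 1)`.
   (M5): `gal σ₀ u' ~ u'^c₀`; `gal σ₀ u' ~ u'`; `p ∤ c₀ - 1` (`σ₀ ζ ≠ ζ`): `u' ~ 1`.
-/

set_option autoImplicit false
set_option synthInstance.maxHeartbeats 400000

open HahnSeries ModularCurve AlgebraicCurve Fermat.Agent.S24 Fermat.Agent.S29 Fermat.Agent.S18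
  Fermat.Agent.ES Fermat.Agent.ES.Alg Fermat.Agent.S34.Mod Fermat.Agent.S05 Fermat.Agent.S55.B ExtCitation
open Fermat.Agent.S55 (Dq Iq)

noncomputable section

namespace Fermat.Agent.S33

variable {q : Nat.Primes} {M1 r : ℕ} [NeZero M1] [NeZero (q : ℕ)] [NeZero r]

namespace M

/-- every `σ` acts on `μ_p` by a power -/
theorem mainAux_exists_cyc (σ : GQ) : ∃ c : ℕ, Cyc (q : ℕ) σ c := by
  obtain ⟨ζ, hζ⟩ := cycAux_exists_prim (q := q)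
  have h1 : (σ ζ) ^ (q : ℕ) = 1 := by rw [← map_pow, hζ.pow_eq_one, map_one]
  obtain ⟨c, -, hc⟩ := hζ.eq_pow_of_pow_eq_one h1
  refine ⟨c, fun μ hμ => ?_⟩
  obtain ⟨i, -, hi⟩ := hζ.eq_pow_of_pow_eq_one hμ
  rw [← hi, map_pow, ← hc, ← pow_mul, ← pow_mul, mul_comm]

/-- a nonzero `x` with `x ^ c = x * h ^ p`, where `σ₀ = (·)^c` moves `μ_p`, is a `p`-th power -/
theorem mainAux_isPow {N : ℕ} {σ₀ : GQ} (hmv : ∃ ζ : Qb, ζ ^ (q : ℕ) = 1 ∧ σ₀ ζ ≠ ζ) {c : ℕ}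
    (hc : Cyc (q : ℕ) σ₀ c) {x h : FN N} (hx : x ≠ 0) (hxh : x ^ c = x * h ^ (q : ℕ)) :
    ∃ g : FN N, x = g ^ (q : ℕ) := by
  obtain ⟨ζ, hζ1, hζ⟩ := hmv
  have hζ0 : ζ ≠ 0 := fun h0 => by
    rw [h0, zero_pow (NeZero.ne _)] at hζ1; exact zero_ne_one hζ1
  -- `p ∤ c - 1`
  have hnd : ¬ ((q : ℕ) : ℤ) ∣ (c : ℤ) - 1 := by
    rintro ⟨k, hk⟩
    apply hζ
    rw [hc ζ hζ1]
    have h1 : ζ ^ ((c : ℤ) - 1) = 1 := by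
      rw [hk, zpow_mul, zpow_natCast, hζ1, one_zpow]
    have h2 : ζ ^ (c : ℤ) = ζ := by
      have : (c : ℤ) = ((c : ℤ) - 1) + 1 := by ring
      rw [this, zpow_add₀ hζ0, h1, one_mul, zpow_one]
    rwa [zpow_natCast] at h2
  have hcop : IsCoprime ((c : ℤ) - 1) ((q : ℕ) : ℤ) := by
    have hp : Prime (((q : ℕ) : ℤ)) := Nat.prime_iff_prime_int.mp q.2
    exact ((hp.coprime_iff_not_dvd).mpr hnd).symm
  obtain ⟨a, b, hab⟩ := hcop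
  have h3 : x ^ ((c : ℤ) - 1) = h ^ (q : ℕ) := by
    rw [zpow_sub₀ hx, zpow_natCast, zpow_one, hxh, mul_comm, mul_div_assoc, div_self hx, mul_one]
  refine ⟨h ^ a * x ^ b, ?_⟩
  have h4 : x = x ^ (a * ((c : ℤ) - 1) + b * ((q : ℕ) : ℤ)) := by rw [hab, zpow_one]
  calc x = x ^ (a * ((c : ℤ) - 1) + b * ((q : ℕ) : ℤ)) := h4
    _ = (x ^ ((c : ℤ) - 1)) ^ a * (x ^ b) ^ (q : ℕ) := by
        rw [zpow_add₀ hx, mul_comm a, zpow_mul, zpow_mul, zpow_natCast]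
    _ = (h ^ a * x ^ b) ^ (q : ℕ) := by
        rw [h3, mul_pow, ← zpow_natCast (h ^ a), ← zpow_mul, ← zpow_natCast h, ← zpow_mul,
          mul_comm a]

theorem mainAux_PEq_map {N N' : ℕ} {p : ℕ} (φ : FN N →* FN N') {u v : FN N} (h : PEq p u v) :
    PEq p (φ u) (φ v) := by
  obtain ⟨g, hg⟩ := h
  exact ⟨φ g, by rw [hg, map_mul, map_pow]⟩

omit [NeZero (q : ℕ)] in
/-- `O1` is transported by a multiplicative map which commutes with the Galois action -/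
theorem mainAux_O1_map {N N' : ℕ} [NeZero N] [NeZero N'] (φ : FN N →* FN N')
    (hφ : ∀ (σ : GQ) (x : FN N), φ (gal N σ x) = gal N' σ (φ x)) {u : FN N} (h : O1 q u) :
    O1 q (φ u) := by
  intro σ hσ σ' hσ' c hc
  have := mainAux_PEq_map φ (h σ hσ σ' hσ' c hc)
  rwa [map_mul, map_mul, map_pow, map_pow, hφ, hφ, hφ] at this

end M

open M in
/-- **Theorem G at level `M1 p`, `r ∣ M1`** -/
theorem thmG_M (S : Setup M1 (q : ℕ) r (AA q)) (hq2 : (q : ℕ) ≠ 2) {σ₀ : GQ} (hσ₀ : σ₀ ∈ Iq q)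
    (hmv : ∃ ζ : Qb, ζ ^ (q : ℕ) = 1 ∧ σ₀ ζ ≠ ζ) (u : FN (M1 * (q : ℕ)))
    (hu : PDiv Kb (FN (M1 * (q : ℕ))) (q : ℕ) u)
    (h0 : (wG q (M1 * (q : ℕ))).GT (u - 1) 0) (h1 : (wZ q S.hc).GT (u - 1) 0)
    (hfix : PEq (q : ℕ) (gal (M1 * (q : ℕ)) σ₀ u) u) (hO : O1 q u) :
    ∃ g : FN (M1 * (q : ℕ)), u = g ^ (q : ℕ) := by
  have hu0 : u ≠ 0 := hu.1
  have h1' : (wG q (M1 * (q : ℕ))).GT (Wq S.hc u - 1) 0 := by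
    have := (wZ_GT_iff (q := q) (M1 := M1) S.hc).mp h1
    rwa [map_sub, map_one] at this
  have hWW : Wq S.hc (Wq S.hc u) = u := Wq_Wq S.hc u
  -- the two norms
  let φ₁ : FN (M1 * (q : ℕ)) →* FN M1 := normAlpha M1 (q : ℕ)
  let φ₂ : FN (M1 * (q : ℕ)) →* FN M1 := (normAlpha M1 (q : ℕ)).comp
    ((Wq S.hc : FN (M1 * (q : ℕ)) →+* FN (M1 * (q : ℕ))) : FN (M1 * (q : ℕ)) →* FN (M1 * (q : ℕ)))
  have hφ₁ : ∀ (σ : GQ) (x : FN (M1 * (q : ℕ))), φ₁ (gal (M1 * (q : ℕ)) σ x) = gal M1 σ (φ₁ x) :=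
    fun σ x => (gal_normAlpha M1 (q : ℕ) σ x).symm
  have hφ₂ : ∀ (σ : GQ) (x : FN (M1 * (q : ℕ))), φ₂ (gal (M1 * (q : ℕ)) σ x) = gal M1 σ (φ₂ x) :=
    fun σ x => by
      show normAlpha M1 (q : ℕ) (Wq S.hc (gal (M1 * (q : ℕ)) σ x)) =
        gal M1 σ (normAlpha M1 (q : ℕ) (Wq S.hc x))
      rw [gal_normAlpha, gal_Wq S.hq S.hc]
  have hN1 : ∃ g : FN M1, normAlpha M1 (q : ℕ) u = g ^ (q : ℕ) := by
    refine thmG_M1 S hq2 hσ₀ hmv _ (Fermat.Agent.S35.PDiv.normAlpha hu)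
      (GT_normAlpha_sub_one S.hc h0 h1') ?_ (mainAux_O1_map φ₁ hφ₁ hO)
    have := mainAux_PEq_map φ₁ hfix
    rwa [hφ₁] at this
  have hN2 : ∃ g : FN M1, normAlpha M1 (q : ℕ) (Wq S.hc u) = g ^ (q : ℕ) := by
    refine thmG_M1 S hq2 hσ₀ hmv _ (Fermat.Agent.S35.PDiv.normAlpha (PDiv.Wq S.hc hu))
      (GT_normAlpha_sub_one S.hc h1' (by rw [hWW]; exact h0)) ?_ (mainAux_O1_map φ₂ hφ₂ hO)
    have := mainAux_PEq_map φ₂ hfix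
    rwa [hφ₂] at this
  -- a deep representative
  obtain ⟨h, hh0, hdeep⟩ := exists_deep S (u := u) ⟨h0, h1⟩ hN1 hN2
    (((q : ℕ) : ℝ) / (((q : ℕ) : ℝ) - 1) + 1)
  set u' := u * h ^ (q : ℕ) with hu'
  have hu'0 : u' ≠ 0 := mul_ne_zero hu0 (pow_ne_zero _ hh0)
  have hPD : PDiv Kb (FN (M1 * (q : ℕ))) (q : ℕ) u' :=
    ⟨hu'0, fun P => by
      rw [hu', P.ord_mul hu0 (pow_ne_zero _ hh0)]
      exact dvd_add (hu.2 P) ((Fermat.Agent.S35.PDiv.pow_self (K := Kb) (m := (q : ℕ)) hh0).2 P)⟩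
  obtain ⟨c, hc⟩ := mainAux_exists_cyc (q := q) σ₀
  obtain ⟨k, hk⟩ := deep_inertia S hq2 hPD (hdeep.toGT2 (by linarith)) hσ₀ hc
  obtain ⟨k', hk'⟩ := hfix
  -- `u'^c = u' * (..)^p`
  have hk0 : k ≠ 0 := by
    rintro rfl
    rw [zero_pow (NeZero.ne _), mul_zero] at hk
    exact (map_ne_zero_iff _ (gal (M1 * (q : ℕ)) σ₀).injective).mpr hu'0 hk
  have hrel : u' ^ c = u' * (k' * gal (M1 * (q : ℕ)) σ₀ h * h⁻¹ * k⁻¹) ^ (q : ℕ) := by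
    have e1 : gal (M1 * (q : ℕ)) σ₀ u' = u * k' ^ (q : ℕ) * (gal (M1 * (q : ℕ)) σ₀ h) ^ (q : ℕ) := by
      rw [hu', map_mul, map_pow, hk']
    have e2 : u' ^ c * k ^ (q : ℕ) = u * k' ^ (q : ℕ) * (gal (M1 * (q : ℕ)) σ₀ h) ^ (q : ℕ) := by
      rw [← hk, e1]
    have hkq : k ^ (q : ℕ) ≠ 0 := pow_ne_zero _ hk0
    have hhq : h ^ (q : ℕ) ≠ 0 := pow_ne_zero _ hh0
    rw [mul_pow, mul_pow, mul_pow, inv_pow, inv_pow, eq_comm, hu']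
    rw [hu'] at e2
    field_simp
    linear_combination (-1 : FN (M1 * (q : ℕ))) * e2
  obtain ⟨g, hg⟩ := mainAux_isPow hmv hc hu'0 hrel
  refine ⟨g * h⁻¹, ?_⟩
  rw [mul_pow, ← hg, hu', inv_pow, mul_inv_cancel_right₀ (pow_ne_zero _ hh0)]

end Fermat.Agent.S33
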