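import Fermat.Agent.S34.T.Main

/-!
# S33/M : two abstract lemmas on nodal charts in residue characteristic `p`       keys `S33/M-RT`, `S33/M-ROOT`   (only `S34/T`; ~120 + ~100 lines)

Setting of `S34/T/Inv.lean`: `T : TwoComp A τ F Ω₁ Ω₂`, `c : NodalChart T θ`; now `p ∈ 𝔪_A`, so `Ω₁`, `Ω₂` have characteristic `p`
(`T.res₁ (cstHom p) = 0` by `TwoComp.res₁_cst_of_mem`, `map_natCast`; `CharP.charP_iff_prime_eq_zero`), `(a - b)^p = a^p - b^p` (`sub_pow_char`/`sub_pow_expChar`).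

## M-RT : `exists_II_one`  (the line bundle `I(w)` is trivial on the special fibre if `w ≡ 1` and the exponent is `p`)
`w' = w⁻¹ ∈ VV` (`ONB.inv_mem_VV`).  `T1` (valid for ALL `n > 0`) with `b₁ = b₂ = 1` (`T.SmV_sub_iff`, `cst_one`): `f ∈ I(w)`, `res₁ f = 1`; put `y = res₂ f`.
`II.exists_res₂`: `d ∈ C0`, `res₂ d = y`.  `c₀ := f^p w - 1 ∈ C0`: `res₁ c₀ = 0`, `res₂ c₀ = y^p - 1 = (y - 1)^p = res₂ (d - 1)^p`.  `c.radical₂ (d - 1) p`: `c' ∈ C0`, `res₁ c' = 0`, `res₂ c' = y - 1`.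
`T1` (second part): `f' ∈ I(w)`, `res₁ f' = 0`, `res₂ f' = y - 1`.   `f - f' ∈ I(w)` (`AddSubgroup.sub_mem`), `res (f - f') = (1, 1)`, `T.SmV_sub_iff`.
`exists_II_one_inv`: apply `exists_II_one` to `τ⁻¹`, `T.inv hτ`, `c.inv hτ`, `o.inv hτ` (`transcendental_inv'`, `isGen_inv`, `SmV_inv`), as in `S34.T.tor`.

## M-ROOT : `exists_C0_of_pow`  (`x̄^p ∈ C̄ ⟹ x̄ ∈ C̄`)
`resⱼ Y = (resⱼ x)^p` (`T.SmV_sub_iff`).  `c.normal₁ x`: `res₁ x` is a root of the monic `X^p - C Y` (`RingHom.IsIntegralElem`: `⟨X^p - C Y, monic_X_pow_sub_C _ hp.ne_zero, by simp […]⟩`): `c₁ ∈ C0`, `res₁ c₁ = res₁ x`.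
In the same way `c₂`, `res₂ c₂ = res₂ x`.  `c.radical₂ (c₂ - c₁) p` with the witness `Y - c₁^p` (`res₁ = 0`, `res₂ = (res₂ x)^p - (res₂ c₁)^p = (res₂ (c₂ - c₁))^p`): `δ ∈ C0`, `res₁ δ = 0`, `res₂ δ = res₂ (c₂ - c₁)`.
`X = c₁ + δ`.
-/

set_option autoImplicit false

noncomputable section

namespace Fermat.Agent.S33.M

open Polynomial Fermat.Agent.S18.KL Fermat.Agent.S34.T

variable {K : Type} [Field K] {A : ValuationSubring K}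
variable {L : Type} [Field L] [Algebra K L] {τ : L}
variable {F : Type} [Field F] [Algebra L F] [FiniteDimensional L F]
variable {Ω₁ Ω₂ : Type} [Field Ω₁] [Field Ω₂]

omit [FiniteDimensional L F] in
theorem rtAux_charP (T : TwoComp A τ F Ω₁ Ω₂) (p : ℕ) (hp : p.Prime)
    (hpA : (p : A) ∈ IsLocalRing.maximalIdeal A) : CharP Ω₁ p ∧ CharP Ω₂ p := by
  have h := T.res₁_cst_of_mem hpA
  rw [map_natCast, map_natCast, map_natCast] at h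
  exact ⟨(CharP.charP_iff_prime_eq_zero hp).mpr h.1, (CharP.charP_iff_prime_eq_zero hp).mpr h.2⟩

omit [FiniteDimensional L F] in
/-- [S33/M-ROOT] -/
theorem exists_C0_of_pow (T : TwoComp A τ F Ω₁ Ω₂) {θ : L} (c : NodalChart T θ) (p : ℕ)
    (hp : p.Prime) (hpA : (p : A) ∈ IsLocalRing.maximalIdeal A) (x : F) (hx : x ∈ VV A τ F)
    (Y : F) (hY : Y ∈ C0 A θ F) (h : SmV A τ F (Y - x ^ p)) :
    ∃ X ∈ C0 A θ F, SmV A τ F (x - X) := by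
  haveI : Fact p.Prime := ⟨hp⟩
  haveI := (rtAux_charP T p hp hpA).2
  obtain ⟨hY1, hY2⟩ := (T.SmV_sub_iff (c.inc ⟨Y, hY⟩) ((⟨x, hx⟩ : VV A τ F) ^ p)).mp h
  rw [map_pow] at hY1 hY2
  obtain ⟨c₁, hc₁⟩ := c.normal₁ ⟨x, hx⟩ ⟨X ^ p - C ⟨Y, hY⟩, monic_X_pow_sub_C _ hp.ne_zero, by
    rw [eval₂_sub, eval₂_pow, eval₂_X, eval₂_C, sub_eq_zero]
    exact hY1.symm⟩
  obtain ⟨c₂, hc₂⟩ := c.normal₂ ⟨x, hx⟩ ⟨X ^ p - C ⟨Y, hY⟩, monic_X_pow_sub_C _ hp.ne_zero, by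
    rw [eval₂_sub, eval₂_pow, eval₂_X, eval₂_C, sub_eq_zero]
    exact hY2.symm⟩
  obtain ⟨δ, hδ1, hδ2⟩ := c.radical₂ (c₂ - c₁) p hp.pos ⟨⟨Y, hY⟩ - c₁ ^ p, by
    rw [map_sub, map_sub, map_pow, map_pow, hc₁]
    exact sub_eq_zero.mpr hY1, by
    rw [map_sub, map_sub, map_pow, map_pow, map_sub, map_sub, sub_pow_char, hc₂]
    congr 1⟩
  refine ⟨(c₁ + δ : C0 A θ F), (c₁ + δ).2, ?_⟩
  refine (T.SmV_sub_iff ⟨x, hx⟩ (c.inc (c₁ + δ))).mpr ⟨?_, ?_⟩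
  · rw [map_add, map_add]
    show _ = T.res₁ (Subring.inclusion c.le c₁) + T.res₁ (Subring.inclusion c.le δ)
    rw [hc₁, hδ1, add_zero]
  · rw [map_add, map_add]
    show _ = T.res₂ (Subring.inclusion c.le c₁) + T.res₂ (Subring.inclusion c.le δ)
    rw [hδ2, map_sub, map_sub, hc₂]
    ring

/-- [S33/M-RT] -/
theorem exists_II_one [IsAlgClosed K] [CharZero K] [Algebra K F] [IsScalarTower K L F]
    (hτ : Transcendental K τ) (hgen : IsGen K τ) {ι : Type} [Fintype ι] (o : ONB A τ F ι)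
    (T : TwoComp A τ F Ω₁ Ω₂) (c : NodalChart T τ) (p : ℕ) (hp : p.Prime)
    (hpA : (p : A) ∈ IsLocalRing.maximalIdeal A) (w : F) (hw : SmV A τ F (w - 1))
    (hdiv : ∀ P : AlgebraicCurve.Place K F, (p : ℤ) ∣ P.ord w) :
    ∃ f ∈ II A τ F p hp.pos w, SmV A τ F (f - 1) := by
  haveI : Fact p.Prime := ⟨hp⟩
  haveI := (rtAux_charP T p hp hpA).2
  have hwV : w ∈ VV A τ F := mem_VV_of_SmV_sub_one hw
  have hw0 : w ≠ 0 := ne_zero_of_SmV_sub_one hτ hgen hw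
  have hw'V : w⁻¹ ∈ VV A τ F := (ONB.inv_mem_VV hτ hgen o hw).1
  have hww' : (⟨w, hwV⟩ : VV A τ F) * ⟨w⁻¹, hw'V⟩ = 1 := Subtype.ext (mul_inv_cancel₀ hw0)
  obtain ⟨h₁, h₂⟩ := (T.SmV_sub_iff ⟨w, hwV⟩ 1).mp hw
  have h₁' : T.res₁ ⟨w, hwV⟩ = T.res₁ (cst A τ F 1) := by rw [cst_one]; exact h₁
  have h₂' : T.res₂ ⟨w, hwV⟩ = T.res₂ (cst A τ F 1) := by rw [cst_one]; exact h₂
  obtain ⟨⟨f, hf, hf1⟩, H2, -⟩ := T1 hτ hgen o T c p hp.pos ⟨w, hwV⟩ ⟨w⁻¹, hw'V⟩ hww' 1 1 h₁' h₂' hdiv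
  obtain ⟨d, hd⟩ := II.exists_res₂ hτ c p hp.pos ⟨w, hwV⟩ 1 isUnit_one h₂' f hf
  have e0 : c.inc (⟨(f : F) ^ p * w, hf⟩ - 1) = f ^ p * ⟨w, hwV⟩ - 1 := Subtype.ext rfl
  obtain ⟨c', hc'1, hc'2⟩ := c.radical₂ (d - 1) p hp.pos ⟨⟨(f : F) ^ p * w, hf⟩ - 1, by
    show T.res₁ (c.inc _) = 0
    rw [e0, map_sub, map_mul, map_pow, hf1, h₁, map_one, one_pow, one_mul, sub_self], by
    show T.res₂ (c.inc _) = T.res₂ (c.inc _) ^ p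
    rw [e0, map_sub, map_mul, map_pow, h₂, map_one, mul_one, map_sub, map_sub, map_one, map_one, hd,
      sub_pow_char, one_pow]⟩
  obtain ⟨f', hf', hf'1, hf'2⟩ := H2 c' hc'1
  refine ⟨(f : F) - f', (II A τ F p hp.pos w).sub_mem hf hf', ?_⟩
  refine (T.SmV_sub_iff (f - f') 1).mpr ⟨?_, ?_⟩
  · rw [map_sub, hf1, hf'1, sub_zero, map_one]
  · rw [map_sub, hf'2]
    show _ - T.res₂ (Subring.inclusion c.le c') = _
    rw [hc'2]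
    show _ - T.res₂ (c.inc (d - 1)) = _
    rw [map_sub, map_sub, hd, map_one, map_one, sub_sub_cancel]

/-- [S33/M-RT] the chart `τ⁻¹` -/
theorem exists_II_one_inv [IsAlgClosed K] [CharZero K] [Algebra K F] [IsScalarTower K L F]
    (hτ : Transcendental K τ) (hgen : IsGen K τ) {ι : Type} [Fintype ι] (o : ONB A τ F ι)
    (T : TwoComp A τ F Ω₁ Ω₂) (c : NodalChart T τ⁻¹) (p : ℕ) (hp : p.Prime)
    (hpA : (p : A) ∈ IsLocalRing.maximalIdeal A) (w : F) (hw : SmV A τ F (w - 1))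
    (hdiv : ∀ P : AlgebraicCurve.Place K F, (p : ℤ) ∣ P.ord w) :
    ∃ f ∈ II A τ⁻¹ F p hp.pos w, SmV A τ F (f - 1) := by
  obtain ⟨f, hf, hf1⟩ := exists_II_one (transcendental_inv' hτ) (isGen_inv hτ hgen) (o.inv hτ)
    (T.inv hτ) (c.inv hτ) p hp hpA w ((SmV_inv A hτ _).mpr hw) hdiv
  exact ⟨f, hf, (SmV_inv A hτ _).mp hf1⟩

end Fermat.Agent.S33.M
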