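import Fermat.Agent.S33.Rat.H90
import Fermat.Agent.S33.Ser.NormU
import Fermat.Agent.S33.Val.Binom
import Fermat.Agent.S33.Abs.CechP
import Fermat.Agent.S33.M.RT
import Fermat.Agent.S34.Mod.Core

/-!
# S33/M : level `M = M1 p`, the two Gauss valuations; dictionary with `S18/Z`, `S34/T`       key `S33/M-BR`  (~250 lines)

`q : Nat.Primes` is the prime `p`; `A = AA q = primeLocalPlace q`; `S : Setup M1 q r (AA q)`; `F = FN (M1 * q)`; `wG q (M1 * q)` = Gauss valuation at `∞`, `wZ q S.hc = wG ∘ W_q` = Gauss valuation at `0`.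

* `GE2 hc x t` : `x` has value `≥ t` for BOTH valuations;  `GT2 hc x t` : `> t` for both.
* `mem_VV_iff`: `VV_eq S`, `mem_V2`, `GE_zero_iff`, `wZ_GE_iff`.
* `SmV_iff`: `x ∈ VV` in both cases (`SmV.mem_VV`; `GT.GE`); `(twoComp S).ker`, `res₁_apply`, `res₂_apply`, `GT_zero_iff`, `wZ_GT_iff`.
* `congV_iff`: `CongV a x ↔ x / a ∈ VV` (`evE_C_M S a`), `GE_iff` for `x` and for `Wq x` (`Wq` is `Kb`-linear: `(Wq S.hc).commutes`).
* the closure properties: from `RVal.GE.add`, `GE.mul`, … (`S05/Defs.lean`) for both valuations.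
* `GE2.gal`, `GT2.gal`: `wG_gal` + `gal_Wq S.hq`.      `GT2_gal_sub`: `GT_gal_sub` for `x` and `Wq x`.
* `exists_const_of_GT2`: `exists_of_GT` twice, take the constant of smaller value.
-/

set_option autoImplicit false
set_option synthInstance.maxHeartbeats 400000

open HahnSeries ModularCurve AlgebraicCurve Polynomial Fermat.Agent.S24 Fermat.Agent.S29 Fermat.Agent.S18
  Fermat.Agent.ES Fermat.Agent.ES.Alg Fermat.Agent.S34.Mod Fermat.Agent.S34.T Fermat.Agent.S05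
  Fermat.Agent.S55.B ExtCitation
open Fermat.Agent.S55 (Dq Iq)

noncomputable section

namespace Fermat.Agent.S33.M

variable {q : Nat.Primes} {M1 r : ℕ} [NeZero M1] [NeZero (q : ℕ)] [NeZero r]

/-- value `≥ t` on both components -/
def GE2 (hc : Nat.Coprime (q : ℕ) M1) (x : FN (M1 * (q : ℕ))) (t : ℝ) : Prop :=
  (wG q (M1 * (q : ℕ))).GE x t ∧ (wZ q hc).GE x t

/-- value `> t` on both components -/
def GT2 (hc : Nat.Coprime (q : ℕ) M1) (x : FN (M1 * (q : ℕ))) (t : ℝ) : Prop :=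
  (wG q (M1 * (q : ℕ))).GT x t ∧ (wZ q hc).GT x t

section Formal

variable {hc : Nat.Coprime (q : ℕ) M1} {x y : FN (M1 * (q : ℕ))} {s t : ℝ}

theorem GT2.toGE2 (h : GT2 hc x t) : GE2 hc x t :=
  ⟨h.1.GE le_rfl, h.2.GE le_rfl⟩

theorem GE2.mono (h : GE2 hc x t) (hst : s ≤ t) : GE2 hc x s :=
  ⟨h.1.mono hst, h.2.mono hst⟩

theorem GT2.mono (h : GT2 hc x t) (hst : s ≤ t) : GT2 hc x s :=
  ⟨h.1.mono hst, h.2.mono hst⟩

theorem GE2.toGT2 (h : GE2 hc x t) (hst : s < t) : GT2 hc x s :=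
  ⟨h.1.GT hst, h.2.GT hst⟩

theorem GE2.add (hx : GE2 hc x t) (hy : GE2 hc y t) : GE2 hc (x + y) t :=
  ⟨hx.1.add hy.1, hx.2.add hy.2⟩

theorem GE2.sub (hx : GE2 hc x t) (hy : GE2 hc y t) : GE2 hc (x - y) t :=
  ⟨hx.1.sub hy.1, hx.2.sub hy.2⟩

theorem GE2.neg (hx : GE2 hc x t) : GE2 hc (-x) t :=
  ⟨hx.1.neg, hx.2.neg⟩

theorem GE2.mul (hx : GE2 hc x s) (hy : GE2 hc y t) : GE2 hc (x * y) (s + t) :=
  ⟨hx.1.mul hy.1, hx.2.mul hy.2⟩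

theorem GT2.add (hx : GT2 hc x t) (hy : GT2 hc y t) : GT2 hc (x + y) t :=
  ⟨hx.1.add hy.1, hx.2.add hy.2⟩

theorem GT2.sub (hx : GT2 hc x t) (hy : GT2 hc y t) : GT2 hc (x - y) t :=
  ⟨hx.1.sub hy.1, hx.2.sub hy.2⟩

theorem GT2.mul_GE2 (hx : GT2 hc x s) (hy : GE2 hc y t) : GT2 hc (x * y) (s + t) :=
  ⟨hx.1.mul_GE hy.1, hx.2.mul_GE hy.2⟩

theorem GE2_algebraMap {c : Kb} (h : (wq q).GE c t) :
    GE2 hc (algebraMap Kb (FN (M1 * (q : ℕ))) c) t := by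
  have h1 : (wG q (M1 * (q : ℕ))).GE (algebraMap Kb (FN (M1 * (q : ℕ))) c) t := by
    rcases h with rfl | h
    · rw [map_zero]; exact RVal.GE_zero t
    · by_cases hc0 : c = 0
      · rw [hc0, map_zero]; exact RVal.GE_zero t
      · exact Or.inr (by rw [wG_algebraMap hc0]; exact h)
  refine ⟨h1, (wZ_GE_iff hc).2 ?_⟩
  rw [(Wq hc).commutes]
  exact h1

theorem GT2_algebraMap {c : Kb} (h : (wq q).GT c t) :
    GT2 hc (algebraMap Kb (FN (M1 * (q : ℕ))) c) t := by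
  have h1 : (wG q (M1 * (q : ℕ))).GT (algebraMap Kb (FN (M1 * (q : ℕ))) c) t := by
    rcases h with rfl | h
    · rw [map_zero]; exact RVal.GT_zero t
    · by_cases hc0 : c = 0
      · rw [hc0, map_zero]; exact RVal.GT_zero t
      · exact Or.inr (by rw [wG_algebraMap hc0]; exact h)
  refine ⟨h1, (wZ_GT_iff hc).2 ?_⟩
  rw [(Wq hc).commutes]
  exact h1

/-- `W_q` exchanges the two valuations -/
theorem GE2.Wq (h : GE2 hc x t) : GE2 hc (Wq hc x) t := by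
  refine ⟨(wZ_GE_iff hc).1 h.2, (wZ_GE_iff hc).2 ?_⟩
  rw [Wq_Wq]
  exact h.1

theorem GT2.Wq (h : GT2 hc x t) : GT2 hc (Wq hc x) t := by
  refine ⟨(wZ_GT_iff hc).1 h.2, (wZ_GT_iff hc).2 ?_⟩
  rw [Wq_Wq]
  exact h.1

/-- a strict inequality leaves room -/
theorem exists_const_of_GT2 (h : GT2 hc x t) :
    ∃ c : Kb, c ≠ 0 ∧ t < (wq q).w c ∧ GE2 hc x ((wq q).w c) := by
  obtain ⟨c1, hc1, ht1, h1⟩ := exists_of_GT h.1
  obtain ⟨c2, hc2, ht2, h2⟩ := exists_of_GT ((wZ_GT_iff hc).1 h.2)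
  rcases le_total ((wq q).w c1) ((wq q).w c2) with hle | hle
  · exact ⟨c1, hc1, ht1, h1, (wZ_GE_iff hc).2 (h2.mono hle)⟩
  · exact ⟨c2, hc2, ht2, h1.mono hle, (wZ_GE_iff hc).2 h2⟩

end Formal

theorem brAux_GE_gal {N : ℕ} [NeZero N] {σ : GQ} (hσ : σ ∈ Dq q) {y : FN N} {t : ℝ}
    (h : (wG q N).GE y t) : (wG q N).GE (gal N σ y) t := by
  rcases h with rfl | hy
  · rw [map_zero]; exact RVal.GE_zero t
  · exact Or.inr (by rw [wG_gal hσ]; exact hy)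

theorem brAux_GT_gal {N : ℕ} [NeZero N] {σ : GQ} (hσ : σ ∈ Dq q) {y : FN N} {t : ℝ}
    (h : (wG q N).GT y t) : (wG q N).GT (gal N σ y) t := by
  rcases h with rfl | hy
  · rw [map_zero]; exact RVal.GT_zero t
  · exact Or.inr (by rw [wG_gal hσ]; exact hy)

variable (S : Setup M1 (q : ℕ) r (AA q))

theorem GE2.gal {σ : GQ} (hσ : σ ∈ Dq q) {x : FN (M1 * (q : ℕ))} {t : ℝ} (h : GE2 S.hc x t) :
    GE2 S.hc (gal (M1 * (q : ℕ)) σ x) t := by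
  refine ⟨brAux_GE_gal hσ h.1, (wZ_GE_iff S.hc).2 ?_⟩
  rw [← gal_Wq S.hq S.hc]
  exact brAux_GE_gal hσ ((wZ_GE_iff S.hc).1 h.2)

theorem GT2.gal {σ : GQ} (hσ : σ ∈ Dq q) {x : FN (M1 * (q : ℕ))} {t : ℝ} (h : GT2 S.hc x t) :
    GT2 S.hc (gal (M1 * (q : ℕ)) σ x) t := by
  refine ⟨brAux_GT_gal hσ h.1, (wZ_GT_iff S.hc).2 ?_⟩
  rw [← gal_Wq S.hq S.hc]
  exact brAux_GT_gal hσ ((wZ_GT_iff S.hc).1 h.2)

/-- inertia acts trivially on both residue fields -/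
theorem GT2_gal_sub {σ : GQ} (hσ : σ ∈ Iq q) {x : FN (M1 * (q : ℕ))} (h : GE2 S.hc x 0) :
    GT2 S.hc (gal (M1 * (q : ℕ)) σ x - x) 0 := by
  refine ⟨GT_gal_sub hσ h.1, (wZ_GT_iff S.hc).2 ?_⟩
  rw [map_sub, ← gal_Wq S.hq S.hc]
  exact GT_gal_sub hσ ((wZ_GE_iff S.hc).1 h.2)

theorem mem_VV_iff {x : FN (M1 * (q : ℕ))} :
    x ∈ KL.VV (AA q) S.τM (FN (M1 * (q : ℕ))) ↔ GE2 S.hc x 0 := by
  rw [VV_eq S, mem_V2, GE2, GE_zero_iff, wZ_GE_iff, GE_zero_iff]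

theorem brAux_GE2_iff {hc : Nat.Coprime (q : ℕ) M1} {c : Kb} (hc0 : c ≠ 0)
    {x : FN (M1 * (q : ℕ))} :
    GE2 hc x ((wq q).w c) ↔ ∃ y, GE2 hc y 0 ∧ x = algebraMap Kb (FN (M1 * (q : ℕ))) c * y := by
  have hc' : algebraMap Kb (FN (M1 * (q : ℕ))) c ≠ 0 := by simpa using hc0
  constructor
  · intro h
    refine ⟨algebraMap Kb (FN (M1 * (q : ℕ))) c⁻¹ * x, ?_, ?_⟩
    · have h1 : GE2 hc (algebraMap Kb (FN (M1 * (q : ℕ))) c⁻¹) (-(wq q).w c) :=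
        GE2_algebraMap (Or.inr (by rw [RVal.w_inv hc0]))
      have h2 := h1.mul h
      rwa [neg_add_cancel] at h2
    · rw [← mul_assoc, ← map_mul, mul_inv_cancel₀ hc0, map_one, one_mul]
  · rintro ⟨y, hy, rfl⟩
    have h1 : GE2 hc (algebraMap Kb (FN (M1 * (q : ℕ))) c) ((wq q).w c) :=
      GE2_algebraMap (Or.inr le_rfl)
    have h2 := h1.mul hy
    rwa [add_zero] at h2

theorem brAux_GT2_iff {hc : Nat.Coprime (q : ℕ) M1} {c : Kb} (hc0 : c ≠ 0)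
    {x : FN (M1 * (q : ℕ))} :
    GT2 hc x ((wq q).w c) ↔ ∃ y, GT2 hc y 0 ∧ x = algebraMap Kb (FN (M1 * (q : ℕ))) c * y := by
  have hc' : algebraMap Kb (FN (M1 * (q : ℕ))) c ≠ 0 := by simpa using hc0
  constructor
  · intro h
    refine ⟨x * algebraMap Kb (FN (M1 * (q : ℕ))) c⁻¹, ?_, ?_⟩
    · have h1 : GE2 hc (algebraMap Kb (FN (M1 * (q : ℕ))) c⁻¹) (-(wq q).w c) :=
        GE2_algebraMap (Or.inr (by rw [RVal.w_inv hc0]))
      have h2 := h.mul_GE2 h1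
      rwa [add_neg_cancel] at h2
    · rw [mul_comm x, ← mul_assoc, ← map_mul, mul_inv_cancel₀ hc0, map_one, one_mul]
  · rintro ⟨y, hy, rfl⟩
    have h1 : GE2 hc (algebraMap Kb (FN (M1 * (q : ℕ))) c) ((wq q).w c) :=
      GE2_algebraMap (Or.inr le_rfl)
    have h2 := hy.mul_GE2 h1
    rwa [zero_add, mul_comm] at h2

theorem SmV_iff {x : FN (M1 * (q : ℕ))} :
    KL.SmV (AA q) S.τM (FN (M1 * (q : ℕ))) x ↔ GT2 S.hc x 0 := by
  constructor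
  · rintro ⟨a, ha, y, hy, rfl⟩
    rw [evE_C_M S a]
    have h1 : GT2 S.hc (algebraMap Kb (FN (M1 * (q : ℕ))) (a : Kb)) 0 := by
      refine GT2_algebraMap ((GT_zero_iff_mem_nonunits q).2 ?_)
      exact (ValuationSubring.mem_nonunits_iff_exists_mem_maximalIdeal).2 ⟨a.2, ha⟩
    have h2 := h1.mul_GE2 ((mem_VV_iff S).1 hy)
    rwa [add_zero] at h2
  · intro h
    obtain ⟨c, hc0, hpos, hc⟩ := exists_const_of_GT2 h
    obtain ⟨y, hy, rfl⟩ := (brAux_GE2_iff hc0).1 hc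
    have hcn : c ∈ (AA q).nonunits := (GT_zero_iff_mem_nonunits q).1 (Or.inr hpos)
    obtain ⟨hcA, hcm⟩ := (ValuationSubring.mem_nonunits_iff_exists_mem_maximalIdeal).1 hcn
    refine ⟨⟨c, hcA⟩, hcm, y, (mem_VV_iff S).2 hy, ?_⟩
    rw [evE_C_M S]

theorem congV_iff {a : AA q} (ha : a ≠ 0) {x : FN (M1 * (q : ℕ))} :
    CongV (AA q) S.τM (FN (M1 * (q : ℕ))) a x ↔ GE2 S.hc x ((wq q).w (a : Kb)) := by
  have ha' : (a : Kb) ≠ 0 := fun h => ha (Subtype.ext h)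
  rw [brAux_GE2_iff ha', CongV]
  constructor
  · rintro ⟨y, hy, rfl⟩
    exact ⟨y, (mem_VV_iff S).1 hy, by rw [evE_C_M S a]⟩
  · rintro ⟨y, hy, rfl⟩
    exact ⟨y, (mem_VV_iff S).2 hy, by rw [evE_C_M S a]⟩

/-- `x = a y` with `y` integral -/
theorem GE2_iff {c : Kb} (hc0 : c ≠ 0) {x : FN (M1 * (q : ℕ))} :
    GE2 S.hc x ((wq q).w c) ↔ ∃ y, GE2 S.hc y 0 ∧ x = algebraMap Kb (FN (M1 * (q : ℕ))) c * y :=
  brAux_GE2_iff hc0

theorem GT2_iff {c : Kb} (hc0 : c ≠ 0) {x : FN (M1 * (q : ℕ))} :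
    GT2 S.hc x ((wq q).w c) ↔ ∃ y, GT2 S.hc y 0 ∧ x = algebraMap Kb (FN (M1 * (q : ℕ))) c * y :=
  brAux_GT2_iff hc0

end Fermat.Agent.S33.M
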