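import Fermat.Agent.S33.M.Bridge
import Fermat.Agent.S33.Rat.Api

/-!
# S33/M : keys `S33/M-L0`, `S33/M-L1` (helper22): the proofs of `exists_II_one_M`, `exists_rat_II`, `exists_rat_C0` of `S33/M/Imp.lean`
(stated with `II …` instead of the abbreviation `IIb`).  See the header of `Imp.lean` for the mathematics.
-/

set_option autoImplicit false
set_option synthInstance.maxHeartbeats 400000
set_option linter.unusedSectionVars false
set_option linter.unusedVariables false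

open HahnSeries ModularCurve AlgebraicCurve Polynomial Fermat.Agent.S24 Fermat.Agent.S29 Fermat.Agent.S18
  Fermat.Agent.ES Fermat.Agent.ES.Alg Fermat.Agent.S34.Mod Fermat.Agent.S34.T Fermat.Agent.S05
  Fermat.Agent.S55.B ExtCitation
open Fermat.Agent.S55 (Dq Iq)

noncomputable section

namespace Fermat.Agent.S33.M

variable {q : Nat.Primes} {M1 r : ℕ} [NeZero M1] [NeZero (q : ℕ)] [NeZero r]
variable (S : Setup M1 (q : ℕ) r (AA q))

theorem impAux_tr (b : Bool) : Transcendental Kb (S.θM b) := by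
  cases b
  · exact transcendental_τM S
  · exact KL.transcendental_inv' (transcendental_τM S)

theorem impAux_VV (b : Bool) :
    KL.VV (AA q) (S.θM b) (FN (M1 * (q : ℕ))) = KL.VV (AA q) S.τM (FN (M1 * (q : ℕ))) := by
  cases b
  · rfl
  · exact KL.VV_inv (AA q) (transcendental_τM S)

theorem impAux_const_mem (b : Bool) {a : Kb} (ha : a ∈ AA q) :
    algebraMap Kb (FN (M1 * (q : ℕ))) a ∈ KL.C0 (AA q) (S.θM b) (FN (M1 * (q : ℕ))) :=
  jj_mem_C0 (A := AA q) (L := S.LM) (E := FN (M1 * (q : ℕ))) (S.θM b) ⟨a, ha⟩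

/-- `c y ∈ C_b`, `y ∈ VV`, `c ≠ 0` ⟹ `y ∈ C_b` -/
theorem impAux_mem_C0_of_smul (b : Bool) {c : Kb} (hc : c ≠ 0) {y : FN (M1 * (q : ℕ))}
    (h1 : algebraMap Kb (FN (M1 * (q : ℕ))) c * y ∈ KL.C0 (AA q) (S.θM b) (FN (M1 * (q : ℕ))))
    (h2 : GE2 S.hc y 0) : y ∈ KL.C0 (AA q) (S.θM b) (FN (M1 * (q : ℕ))) := by
  refine KL.SatB.mem_C0_of_mem_B0_VV (AA q) (impAux_tr S b) ?_
    (by rw [impAux_VV]; exact (mem_VV_iff S).2 h2)
  have h3 : y = algebraMap Kb (FN (M1 * (q : ℕ))) c⁻¹ * (algebraMap Kb (FN (M1 * (q : ℕ))) c * y) := by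
    rw [← mul_assoc, ← map_mul, inv_mul_cancel₀ hc, map_one, one_mul]
  rw [h3]
  exact (KL.B0 Kb (S.θM b) (FN (M1 * (q : ℕ)))).mul_mem
    (KL.SatB.const_mem_B0 (L := S.LM) (E := FN (M1 * (q : ℕ))) c⁻¹) (KL.SatB.C0_le_B0 (AA q) h1)

theorem impAux_natCast_mem (q : Nat.Primes) :
    (((q : ℕ) : ℕ) : AA q) ∈ IsLocalRing.maximalIdeal (AA q) := by
  have h1 : ((((q : ℕ) : ℕ) : AA q) : Kb) ∈ (AA q).nonunits := by
    have : ((((q : ℕ) : ℕ) : AA q) : Kb) = ((q : ℕ) : Kb) := by simp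
    rw [this]
    exact (GT_zero_iff_mem_nonunits q).1 (Or.inr (by rw [wq_q]; exact one_pos))
  exact ValuationSubring.coe_mem_nonunits_iff.mp h1

/-- [S33/M-L0] -/
theorem impAux_exists_II_one (b : Bool) {v : FN (M1 * (q : ℕ))}
    (hv : PDiv Kb (FN (M1 * (q : ℕ))) (q : ℕ) v) (hv1 : GT2 S.hc (v - 1) 0) :
    ∃ f ∈ II (AA q) (S.θM b) (FN (M1 * (q : ℕ))) (q : ℕ) q.2.pos v, GT2 S.hc (f - 1) 0 := by
  obtain ⟨o⟩ := (VV_eq_and_onb S).2
  cases b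
  · obtain ⟨f, hf, hf1⟩ := exists_II_one (transcendental_τM S) (isGen_τM S) o (twoComp S)
      (nodalChart S false) (q : ℕ) q.2 (impAux_natCast_mem q) v ((SmV_iff S).2 hv1) hv.2
    exact ⟨f, hf, (SmV_iff S).1 hf1⟩
  · obtain ⟨f, hf, hf1⟩ := exists_II_one_inv (transcendental_τM S) (isGen_τM S) o (twoComp S)
      (nodalChart S true) (q : ℕ) q.2 (impAux_natCast_mem q) v ((SmV_iff S).2 hv1) hv.2
    exact ⟨f, hf, (SmV_iff S).1 hf1⟩

/-- the `Kb`-span of `I_b(v)` -/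
def impLam (b : Bool) (v : FN (M1 * (q : ℕ))) : AddSubgroup (FN (M1 * (q : ℕ))) where
  carrier := {g | ∃ a : Kb, a ≠ 0 ∧ algebraMap Kb (FN (M1 * (q : ℕ))) a * g ∈
    II (AA q) (S.θM b) (FN (M1 * (q : ℕ))) (q : ℕ) q.2.pos v}
  zero_mem' := ⟨1, one_ne_zero, by rw [mul_zero]; exact AddSubgroup.zero_mem _⟩
  add_mem' := by
    rintro g g' ⟨a, ha, h⟩ ⟨a', ha', h'⟩
    have key : ∀ (a a' : Kb) (g g' : FN (M1 * (q : ℕ))), a ≠ 0 → a' ≠ 0 → a' * a⁻¹ ∈ AA q →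
        algebraMap Kb (FN (M1 * (q : ℕ))) a * g ∈
          II (AA q) (S.θM b) (FN (M1 * (q : ℕ))) (q : ℕ) q.2.pos v →
        algebraMap Kb (FN (M1 * (q : ℕ))) a' * g' ∈
          II (AA q) (S.θM b) (FN (M1 * (q : ℕ))) (q : ℕ) q.2.pos v →
        algebraMap Kb (FN (M1 * (q : ℕ))) a' * (g + g') ∈
          II (AA q) (S.θM b) (FN (M1 * (q : ℕ))) (q : ℕ) q.2.pos v := by
      intro a a' g g' ha ha' hm h h'
      rw [mul_add]
      refine AddSubgroup.add_mem _ ?_ h'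
      have e : algebraMap Kb (FN (M1 * (q : ℕ))) a' * g =
          algebraMap Kb (FN (M1 * (q : ℕ))) (a' * a⁻¹) *
            (algebraMap Kb (FN (M1 * (q : ℕ))) a * g) := by
        rw [← mul_assoc, ← map_mul, mul_assoc, inv_mul_cancel₀ ha, mul_one]
      rw [e]
      exact II.mul_mem (impAux_const_mem S b hm) h
    rcases (AA q).mem_or_inv_mem (a' * a⁻¹) with hm | hm
    · exact ⟨a', ha', key a a' g g' ha ha' hm h h'⟩
    · refine ⟨a, ha, ?_⟩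
      rw [add_comm]
      refine key a' a g' g ha' ha ?_ h' h
      rwa [mul_inv, inv_inv, mul_comm] at hm
  neg_mem' := by
    rintro g ⟨a, ha, h⟩
    exact ⟨a, ha, by rw [mul_neg]; exact AddSubgroup.neg_mem _ h⟩

variable {H : Subgroup GQ}

/-- [S33/M-L1] -/
theorem impAux_exists_rat_II (hH : H ≤ Iq q) (hfin : H.relIndex (Iq q) ≠ 0) (b : Bool)
    {v : FN (M1 * (q : ℕ))} (hvH : v ∈ ratF (M1 * (q : ℕ)) H) (hv0 : GE2 S.hc v 0)
    {f₀ : FN (M1 * (q : ℕ))}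
    (hf₀ : f₀ ∈ II (AA q) (S.θM b) (FN (M1 * (q : ℕ))) (q : ℕ) q.2.pos v)
    (hf₀V : GE2 S.hc f₀ 0) :
    ∃ f ∈ II (AA q) (S.θM b) (FN (M1 * (q : ℕ))) (q : ℕ) q.2.pos v,
      f ∈ ratF (M1 * (q : ℕ)) H ∧ GT2 S.hc (f - f₀) 0 := by
  have h1 : ∀ (a : Kb), ∀ x ∈ impLam S b v, algebraMap Kb (FN (M1 * (q : ℕ))) a * x ∈ impLam S b v := by
    rintro c x ⟨a, ha, h⟩
    by_cases hc : c = 0
    · rw [hc, map_zero, zero_mul]; exact AddSubgroup.zero_mem _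
    · refine ⟨a * c⁻¹, mul_ne_zero ha (inv_ne_zero hc), ?_⟩
      rw [← mul_assoc, ← map_mul, mul_assoc, inv_mul_cancel₀ hc, mul_one]
      exact h
  have h2 : ∀ σ ∈ H, ∀ x ∈ impLam S b v, gal (M1 * (q : ℕ)) σ x ∈ impLam S b v := by
    rintro σ hσ x ⟨a, ha, h⟩
    refine ⟨σ a, (map_ne_zero σ).2 ha, ?_⟩
    have hD : σ ∈ (AA q).decompositionSubgroup ℚ := Iq_le_Dq q (hH hσ)
    have h3 := gal_mem_C0 S hD b (mem_II.1 h)
    rw [map_mul, map_pow, map_mul, hvH σ hσ, arithmeticRingAut_algebraMap] at h3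
    exact mem_II.2 h3
  have h3 : f₀ ∈ impLam S b v := ⟨1, one_ne_zero, by rw [map_one, one_mul]; exact hf₀⟩
  obtain ⟨f, ⟨a, ha, hfa⟩, hfH, hG, hZ⟩ :=
    exists_rat_approx₂ S.hc hH hfin (impLam S b v) h1 h2 h3 hf₀V.1 hf₀V.2
  have hd : GT2 S.hc (f₀ - f) 0 := ⟨hG, hZ⟩
  have hfV : GE2 S.hc f 0 := by
    have := hf₀V.sub hd.toGE2
    rwa [sub_sub_cancel] at this
  refine ⟨f, ?_, hfH, ?_⟩
  · rw [mem_II] at hfa ⊢
    rw [mul_pow, ← map_pow, mul_assoc] at hfa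
    refine impAux_mem_C0_of_smul S b (pow_ne_zero _ ha) hfa ?_
    have hp : GE2 S.hc (f ^ (q : ℕ)) 0 := (mem_VV_iff S).1 (pow_mem ((mem_VV_iff S).2 hfV) _)
    have := hp.mul hv0
    rwa [add_zero] at this
  · have : f - f₀ = 0 - (f₀ - f) := by ring
    rw [this]
    exact GT2.sub ⟨RVal.GT_zero 0, RVal.GT_zero 0⟩ hd

/-- [S33/M-L1] -/
theorem impAux_exists_rat_C0 (hH : H ≤ Iq q) (hfin : H.relIndex (Iq q) ≠ 0) (b : Bool)
    {X : FN (M1 * (q : ℕ))} (hX : X ∈ KL.C0 (AA q) (S.θM b) (FN (M1 * (q : ℕ)))) :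
    ∃ X' ∈ KL.C0 (AA q) (S.θM b) (FN (M1 * (q : ℕ))), X' ∈ ratF (M1 * (q : ℕ)) H ∧
      GT2 S.hc (X' - X) 0 := by
  have h1 : GE2 S.hc (1 : FN (M1 * (q : ℕ))) 0 := (mem_VV_iff S).1 (one_mem _)
  obtain ⟨f, hf, hfH, hd⟩ := impAux_exists_rat_II S hH hfin b (v := 1) (one_mem _) h1 (f₀ := X)
    (mem_II.2 (by rw [mul_one]; exact pow_mem hX _)) ((mem_VV_iff S).1 (C0M_le S b hX))
  exact ⟨f, II.mem_one hf, hfH, hd⟩

end Fermat.Agent.S33.M
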