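import Fermat.Agent.S33.M.Bridge
import Fermat.Agent.S33.M.ImpRat

/-!
# S33/M : rational improvement.  `v ≡ 1 (ϖ^p)`, `p ∣ div v`  ⟹  `I_b(v) ∋ f ≡ 1 (ϖ)`  on both charts
keys `S33/M-L0` (`exists_II_one_M`, ~80 lines), `S33/M-L1` (`exists_rat_II`, `exists_rat_C0`, ~250), `S33/M-L2` (`exists_depth`, `GE2_of_GT2_rat`, ~150), `S33/M-L3` (`improve`, ~300), `S33/M-L4` (`exists_II_pi`, ~200)

`F = FN (M1 p)`, `b : Bool` a chart, `C_b = KL.C0 (AA q) (S.θM b) F`, `I_b(v) = II (AA q) (S.θM b) F p _ v = {f | f^p v ∈ C_b}`.  `H ≤ Iq q` of finite index `N`; rational = in `ratF (M1 p) H`.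

## M-L0 : instance of `M.exists_II_one(_inv)`
As in `S34.Mod.tor_core`: `obtain ⟨o⟩ := (VV_eq_and_onb S).2`, `twoComp S`, `nodalChart S b` (`S.θM false = S.τM`, `S.θM true = S.τM⁻¹` by `rfl`/`cases b`), `transcendental_τM S`, `isGen_τM S`;
`(p : AA q) ∈ 𝔪` from `S.hA` (`LiesOverPrime`; see `Arch.…`/`KLAllAux`, or `GT_zero_iff_mem_nonunits` + `wq_q`); `SmV_iff S`; `hv.2` for the divisor.

## M-L1 : rationalisation with the retraction `E`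
`exists_theta_fun f₀` + `exists_theta`: `θ'` with `f₀ ∈ ratF (stab H θ')`; `R : Retr q H (stab H θ')` (`exists_retr q hH hfin θ'`); `f := R.E _ f₀`.
 * rational: `Retr.E_mem`.       * `GT2 (f - f₀) 0`: `Retr.E_res` for `f₀` and for `Wq f₀` (`Retr.E_Wq`, `Wq_mem_ratF`, `wZ_GT_iff`, `map_sub`).
 * `f ∈ I_b(v)`: `Λ := {g | ∃ a : AA q, a ≠ 0 ∧ jj a * g ∈ I_b(v)}` is an additive subgroup (common multiple `a a'`, `II.mul_mem`), stable under `Kb` (`c ∈ A`: `II.mul_mem`; `c⁻¹ ∈ A`: replace `a` by `a c⁻¹`) and under `gal σ`, `σ ∈ H`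
   (`gal σ ((a g)^p v) ∈ C_b` by `gal_mem_C0 S (hσ : σ ∈ Dq) b`, `gal σ v = v`, `gal_cst`/`gal_algebraMap`).  `Retr.E_mem_of_stable`: `a f ∈ I_b(v)`, i.e. `a^p (f^p v) ∈ C_b`; `f^p v ∈ VV` (`mem_VV_iff`, `f ≡ f₀`); `mem_C0_of_jj_mul` (`S33/Abs/ASBasis.lean`; `KL.VV_inv` for `b = true`).
`exists_rat_C0`: `exists_rat_II` with `v = 1` (`II.mem_one`; `X ∈ C_b ⟹ X ∈ I_b(1)`; `1 ∈ ratF`).

## M-L2 : discreteness
`exists_depth`: `wG_rat` for `y` and for `Wq y` (`Wq_mem_ratF`): `a₁, a₂ ∈ Fx H`; take the one of smaller value.  (`RVal.GE y t ↔ y = 0 ∨ t ≤ w y`.)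
`GE2_of_GT2_rat`: `y = 0` trivial; `w y = w a`, `N w a ∈ ℤ` (`w_of_relIndex`): `N w a > k ⟹ N w a ≥ k + 1`.

## M-L3 : the improvement step
`y = f - 1 = a x`, `GE2 x 0` (`GE2_iff`), `d = w a`, `0 < d < 1/(p-1)`.
(1) `f^p - 1 - y^p` has value `≥ 1 + d > p d` (`GE_one_add_pow` for both valuations, `w p = 1`: `wG_algebraMap`, `wq_q`); `v - 1` has value `≥ p/(p-1) > p d`; `f^p` is integral.  So `f^p v - 1 - a^p x^p = (f^p - 1 - y^p) + f^p (v - 1)` is `GT2 … (p d)`.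
(2) `Y := (f^p v - 1) / a^p`: `GT2 (Y - x^p) 0` (`GT2_iff` with `c = a^p`), so `Y ∈ VV`; `a^p Y = f^p v - 1 ∈ C_b`; `Y ∈ C_b` (`mem_C0_of_jj_mul`; `a ∈ A` because `d > 0`).
(3) `M.exists_C0_of_pow (twoComp S) (nodalChart S b)`: `X ∈ C_b`, `SmV (x - X)`.   `exists_rat_C0`: `X' ∈ C_b` rational, `GT2 (X' - X) 0`.
(4) `f' := f (1 - a X')`: rational (`algebraMap_mem_ratF`), in `I_b(v)` (`II.mul_mem`, `1 - a X' ∈ C_b`), `f' - 1 = a (x - X') - a^2 x X'`: `GT2 … d` (`d > 0`).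

## M-L4 : the induction
`exists_theta_fun v` + `exists_theta`: `θ`, `H = stab (Iq q) θ` (`stab_le`, `relIndex_stab_ne_zero q le_rfl (by simp) θ`), `v` rational, `N = H.relIndex (Iq q)`.
`exists_II_one_M` + `exists_rat_II`: `f₁` rational in `I_b(v)`, `GT2 (f₁ - 1) 0`, so `GE2 (f₁ - 1) (1/N)` (`GE2_of_GT2_rat`, `k = 0`).
CLAIM `∀ k ≥ 1`: there is a rational `f ∈ I_b(v)` with `GE2 (f - 1) (min (k/N) (1/(p-1)))`.  Step: if `GE2 (f - 1) (1/(p-1))` keep `f`.  Otherwise `f ≠ 1`, `exists_depth`: `a`, `d = w a ≥ k/N > 0`, `d < 1/(p-1)`; `improve`: `f'`, `GT2 (f' - 1) d`, hence `GT2 … (k/N)`,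
`GE2 … ((k+1)/N)`.   Take `k = N`.
-/

set_option autoImplicit false
set_option synthInstance.maxHeartbeats 400000

open HahnSeries ModularCurve AlgebraicCurve Polynomial Fermat.Agent.S24 Fermat.Agent.S29 Fermat.Agent.S18
  Fermat.Agent.ES Fermat.Agent.ES.Alg Fermat.Agent.S34.Mod Fermat.Agent.S34.T Fermat.Agent.S05
  Fermat.Agent.S55.B ExtCitation
open Fermat.Agent.S55 (Dq Iq)

noncomputable section

namespace Fermat.Agent.S33.M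

variable {q : Nat.Primes} {M1 r : ℕ} [NeZero M1] [NeZero (q : ℕ)] [NeZero r]
variable (S : Setup M1 (q : ℕ) r (AA q))

/-- the lattice `I_b(v)` -/
abbrev IIb (b : Bool) (v : FN (M1 * (q : ℕ))) : AddSubgroup (FN (M1 * (q : ℕ))) :=
  II (AA q) (S.θM b) (FN (M1 * (q : ℕ))) (q : ℕ) q.2.pos v

/-- [S33/M-L0] (RT) -/
theorem exists_II_one_M (b : Bool) {v : FN (M1 * (q : ℕ))}
    (hv : PDiv Kb (FN (M1 * (q : ℕ))) (q : ℕ) v) (hv1 : GT2 S.hc (v - 1) 0) :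
    ∃ f ∈ IIb S b v, GT2 S.hc (f - 1) 0 :=
  impAux_exists_II_one S b hv hv1

variable {H : Subgroup GQ}

/-- [S33/M-L1] -/
theorem exists_rat_II (hH : H ≤ Iq q) (hfin : H.relIndex (Iq q) ≠ 0) (b : Bool)
    {v : FN (M1 * (q : ℕ))} (hvH : v ∈ ratF (M1 * (q : ℕ)) H) (hv0 : GE2 S.hc v 0)
    {f₀ : FN (M1 * (q : ℕ))} (hf₀ : f₀ ∈ IIb S b v) (hf₀V : GE2 S.hc f₀ 0) :
    ∃ f ∈ IIb S b v, f ∈ ratF (M1 * (q : ℕ)) H ∧ GT2 S.hc (f - f₀) 0 :=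
  impAux_exists_rat_II S hH hfin b hvH hv0 hf₀ hf₀V

/-- [S33/M-L1] -/
theorem exists_rat_C0 (hH : H ≤ Iq q) (hfin : H.relIndex (Iq q) ≠ 0) (b : Bool)
    {X : FN (M1 * (q : ℕ))} (hX : X ∈ KL.C0 (AA q) (S.θM b) (FN (M1 * (q : ℕ)))) :
    ∃ X' ∈ KL.C0 (AA q) (S.θM b) (FN (M1 * (q : ℕ))), X' ∈ ratF (M1 * (q : ℕ)) H ∧
      GT2 S.hc (X' - X) 0 :=
  impAux_exists_rat_C0 S hH hfin b hX

/-- [S33/M-L2] the depth of a rational function is the value of a rational constant -/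
theorem exists_depth (hH : H ≤ Iq q) {y : FN (M1 * (q : ℕ))} (hy : y ∈ ratF (M1 * (q : ℕ)) H)
    (hy0 : y ≠ 0) :
    ∃ a ∈ Fx H, a ≠ 0 ∧ GE2 S.hc y ((wq q).w a) ∧ ∀ t, GE2 S.hc y t → t ≤ (wq q).w a := by
  have hW0 : Wq S.hc y ≠ 0 := (map_ne_zero_iff _ (Wq S.hc).injective).2 hy0
  obtain ⟨a1, ha1, h10, e1⟩ := wG_rat hH hy hy0
  obtain ⟨a2, ha2, h20, e2⟩ := wG_rat hH (Wq_mem_ratF S.hc hy) hW0
  rw [← wZ_apply] at e2
  rcases le_total ((wq q).w a1) ((wq q).w a2) with h | h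
  · exact ⟨a1, ha1, h10, ⟨Or.inr e1.ge, Or.inr (by rw [e2]; exact h)⟩,
      fun t ht => by rw [← e1]; exact ht.1.le_w hy0⟩
  · exact ⟨a2, ha2, h20, ⟨Or.inr (by rw [e1]; exact h), Or.inr e2.ge⟩,
      fun t ht => by rw [← e2]; exact ht.2.le_w hy0⟩

theorem l2Aux_disc (hH : H ≤ Iq q) (hfin : H.relIndex (Iq q) ≠ 0) {a : Kb} (ha : a ∈ Fx H)
    (ha0 : a ≠ 0) {k : ℤ} (h : (k : ℝ) / (H.relIndex (Iq q) : ℝ) < (wq q).w a) :
    ((k : ℝ) + 1) / (H.relIndex (Iq q) : ℝ) ≤ (wq q).w a := by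
  obtain ⟨m, hm⟩ := w_of_relIndex q hH hfin ha ha0
  have hN : (0 : ℝ) < (H.relIndex (Iq q) : ℝ) := by exact_mod_cast Nat.pos_of_ne_zero hfin
  rw [div_lt_iff₀ hN, mul_comm, hm] at h
  have h1 : k + 1 ≤ m := by exact_mod_cast h
  rw [div_le_iff₀ hN, mul_comm, hm]
  exact_mod_cast h1

/-- [S33/M-L2] discreteness -/
theorem GE2_of_GT2_rat (hH : H ≤ Iq q) (hfin : H.relIndex (Iq q) ≠ 0) {y : FN (M1 * (q : ℕ))}
    (hy : y ∈ ratF (M1 * (q : ℕ)) H) {k : ℤ}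
    (h : GT2 S.hc y ((k : ℝ) / (H.relIndex (Iq q) : ℝ))) :
    GE2 S.hc y (((k : ℝ) + 1) / (H.relIndex (Iq q) : ℝ)) := by
  by_cases hy0 : y = 0
  · exact ⟨Or.inl hy0, Or.inl hy0⟩
  have hW0 : Wq S.hc y ≠ 0 := (map_ne_zero_iff _ (Wq S.hc).injective).2 hy0
  obtain ⟨a1, ha1, h10, e1⟩ := wG_rat hH hy hy0
  obtain ⟨a2, ha2, h20, e2⟩ := wG_rat hH (Wq_mem_ratF S.hc hy) hW0
  rw [← wZ_apply] at e2
  refine ⟨Or.inr ?_, Or.inr ?_⟩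
  · rw [e1]
    exact l2Aux_disc hH hfin ha1 h10 (by rw [← e1]; exact h.1.lt_w hy0)
  · rw [e2]
    exact l2Aux_disc hH hfin ha2 h20 (by rw [← e2]; exact h.2.lt_w hy0)

theorem l3Aux_wG_p : (wG q (M1 * (q : ℕ))).w (((q : ℕ) : ℕ) : FN (M1 * (q : ℕ))) = 1 := by
  have : (((q : ℕ) : ℕ) : FN (M1 * (q : ℕ))) = algebraMap Kb (FN (M1 * (q : ℕ))) ((q : ℕ) : Kb) := by
    rw [map_natCast]
  rw [this, wG_algebraMap (q_ne_zero q), wq_q]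

theorem l3Aux_wZ_p (hc : Nat.Coprime (q : ℕ) M1) :
    (wZ q hc).w (((q : ℕ) : ℕ) : FN (M1 * (q : ℕ))) = 1 := by
  rw [wZ_apply, map_natCast, l3Aux_wG_p]

theorem l3Aux_VV (b : Bool) :
    KL.VV (AA q) (S.θM b) (FN (M1 * (q : ℕ))) = KL.VV (AA q) S.τM (FN (M1 * (q : ℕ))) := by
  cases b
  · rfl
  · exact KL.VV_inv (AA q) (transcendental_τM S)

theorem l3Aux_jj (a : AA q) :
    jj (AA q) S.LM (FN (M1 * (q : ℕ))) a = algebraMap Kb (FN (M1 * (q : ℕ))) (a : Kb) := rfl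

theorem l3Aux_const_mem (b : Bool) {a : Kb} (ha : a ∈ AA q) :
    algebraMap Kb (FN (M1 * (q : ℕ))) a ∈ KL.C0 (AA q) (S.θM b) (FN (M1 * (q : ℕ))) :=
  jj_mem_C0 (A := AA q) (L := S.LM) (E := FN (M1 * (q : ℕ))) (S.θM b) ⟨a, ha⟩

theorem l3Aux_p_mem : ((q : ℕ) : AA q) ∈ IsLocalRing.maximalIdeal (AA q) := by
  have h1 : (((q : ℕ) : AA q) : Kb) ∈ (AA q).nonunits := by
    have : (((q : ℕ) : AA q) : Kb) = ((q : ℕ) : Kb) := by simp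
    rw [this]; exact Fermat.Agent.S55.D.liesOverPrime_primeLocalPlace q
  exact ValuationSubring.coe_mem_nonunits_iff.mp h1

/-- [S33/M-L3] the improvement step -/
theorem improve (hH : H ≤ Iq q) (hfin : H.relIndex (Iq q) ≠ 0) (b : Bool)
    {v : FN (M1 * (q : ℕ))} (hvH : v ∈ ratF (M1 * (q : ℕ)) H)
    (hv1 : GE2 S.hc (v - 1) (((q : ℕ) : ℝ) / (((q : ℕ) : ℝ) - 1)))
    {f : FN (M1 * (q : ℕ))} (hf : f ∈ IIb S b v) (hfH : f ∈ ratF (M1 * (q : ℕ)) H)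
    {a : Kb} (ha : a ∈ Fx H) (ha0 : a ≠ 0) (hd0 : 0 < (wq q).w a)
    (hd1 : (wq q).w a < 1 / (((q : ℕ) : ℝ) - 1)) (hfa : GE2 S.hc (f - 1) ((wq q).w a)) :
    ∃ f' ∈ IIb S b v, f' ∈ ratF (M1 * (q : ℕ)) H ∧ GT2 S.hc (f' - 1) ((wq q).w a) := by
  set d : ℝ := (wq q).w a with hd
  have hp1 : (1 : ℝ) < ((q : ℕ) : ℝ) := by exact_mod_cast q.2.one_lt
  have hpm : (0 : ℝ) < ((q : ℕ) : ℝ) - 1 := by linarith
  have hpd : (((q : ℕ) : ℝ) - 1) * d < 1 := by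
    rw [lt_div_iff₀ hpm] at hd1
    linarith
  have haA : a ∈ AA q := (wq_nonneg_iff q ha0).mp hd0.le
  obtain ⟨x, hx0, hfx⟩ := (GE2_iff S ha0).mp hfa
  set aF := algebraMap Kb (FN (M1 * (q : ℕ))) a with haF
  have hfe : f = 1 + aF * x := by rw [← hfx]; ring
  -- (1)
  have hE1 : GE2 S.hc ((1 + (f - 1)) ^ (q : ℕ) - 1 - (f - 1) ^ (q : ℕ)) (1 + d) :=
    ⟨GE_one_add_pow q.2 l3Aux_wG_p hd0.le hfa.1, GE_one_add_pow q.2 (l3Aux_wZ_p S.hc) hd0.le hfa.2⟩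
  have hone : GE2 S.hc (1 : FN (M1 * (q : ℕ))) 0 := (mem_VV_iff S).mp (one_mem _)
  have hf0 : GE2 S.hc f 0 := by
    have := hone.add (hfa.mono hd0.le)
    rwa [add_sub_cancel] at this
  have hfp0 : GE2 S.hc (f ^ (q : ℕ)) 0 := (mem_VV_iff S).mp (pow_mem ((mem_VV_iff S).mpr hf0) (q : ℕ))
  have hE2 : GE2 S.hc (f ^ (q : ℕ) * (v - 1)) (0 + ((q : ℕ) : ℝ) / (((q : ℕ) : ℝ) - 1)) := hfp0.mul hv1
  have hpd2 : ((q : ℕ) : ℝ) * d < ((q : ℕ) : ℝ) / (((q : ℕ) : ℝ) - 1) := by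
    rw [lt_div_iff₀ hpm]
    nlinarith
  have hsum : GT2 S.hc (f ^ (q : ℕ) * v - 1 - (f - 1) ^ (q : ℕ)) (((q : ℕ) : ℝ) * d) := by
    have e : f ^ (q : ℕ) * v - 1 - (f - 1) ^ (q : ℕ) =
        ((1 + (f - 1)) ^ (q : ℕ) - 1 - (f - 1) ^ (q : ℕ)) + f ^ (q : ℕ) * (v - 1) := by ring
    rw [e]
    exact (hE1.toGT2 (by nlinarith)).add (hE2.toGT2 (by rw [zero_add]; exact hpd2))
  -- (2)
  have hap0 : a ^ (q : ℕ) ≠ 0 := pow_ne_zero _ ha0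
  have hwap : (wq q).w (a ^ (q : ℕ)) = ((q : ℕ) : ℝ) * d := RVal.w_pow ha0 (q : ℕ)
  rw [← hwap] at hsum
  obtain ⟨y', hy', ey'⟩ := (GT2_iff S hap0).mp hsum
  set Y := x ^ (q : ℕ) + y' with hY
  have hxV : x ∈ KL.VV (AA q) S.τM (FN (M1 * (q : ℕ))) := (mem_VV_iff S).mpr hx0
  have hYV : Y ∈ KL.VV (AA q) S.τM (FN (M1 * (q : ℕ))) :=
    add_mem (pow_mem hxV (q : ℕ)) ((mem_VV_iff S).mpr hy'.toGE2)
  have eY : algebraMap Kb (FN (M1 * (q : ℕ))) (a ^ (q : ℕ)) * Y = f ^ (q : ℕ) * v - 1 := by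
    rw [hY, mul_add, ← ey', map_pow, ← mul_pow, ← haF, ← hfx]; ring
  have hapA : a ^ (q : ℕ) ∈ AA q := pow_mem haA (q : ℕ)
  have hYC : Y ∈ KL.C0 (AA q) (S.θM b) (FN (M1 * (q : ℕ))) := by
    refine mem_C0_of_jj_mul (A := AA q) (L := S.LM) (ch5_transcendental S b)
      (a := (⟨a ^ (q : ℕ), hapA⟩ : AA q)) (fun h0 => hap0 (congrArg Subtype.val h0)) ?_
      (by rw [l3Aux_VV]; exact hYV)
    rw [l3Aux_jj]
    show algebraMap Kb (FN (M1 * (q : ℕ))) (a ^ (q : ℕ)) * Y ∈ _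
    rw [eY]
    exact sub_mem hf (one_mem _)
  -- (3)
  have hSm : KL.SmV (AA q) S.τM (FN (M1 * (q : ℕ))) (Y - x ^ (q : ℕ)) := by
    rw [SmV_iff S, hY, add_sub_cancel_left]; exact hy'
  obtain ⟨X, hXC, hXS⟩ := exists_C0_of_pow (twoComp S) (nodalChart S b) (q : ℕ) q.2 l3Aux_p_mem x hxV Y
    hYC hSm
  obtain ⟨X', hX'C, hX'H, hX'⟩ := exists_rat_C0 S hH hfin b hXC
  -- (4)
  have haC : aF ∈ KL.C0 (AA q) (S.θM b) (FN (M1 * (q : ℕ))) := l3Aux_const_mem S b haA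
  have hX'0 : GE2 S.hc X' 0 := (mem_VV_iff S).mp (C0M_le S b hX'C)
  refine ⟨(1 - aF * X') * f, II.mul_mem (sub_mem (one_mem _) (mul_mem haC hX'C)) hf,
    mul_mem (sub_mem (one_mem _) (mul_mem (algebraMap_mem_ratF ha) hX'H)) hfH, ?_⟩
  rw [GT2_iff S ha0]
  refine ⟨(x - X) - (X' - X) - aF * (x * X'), ?_, ?_⟩
  · have h1 : GT2 S.hc (x - X) 0 := (SmV_iff S).mp hXS
    have h2 : GT2 S.hc (aF * (x * X')) (0 + (0 + 0)) :=
      (GT2_algebraMap (Or.inr hd0)).mul_GE2 (hx0.mul hX'0)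
    rw [add_zero, add_zero] at h2
    exact (h1.sub hX').sub h2
  · rw [hfe]; ring

/-- [S33/M-L4] **Lemma L** -/
theorem exists_II_pi (b : Bool) {v : FN (M1 * (q : ℕ))}
    (hv : PDiv Kb (FN (M1 * (q : ℕ))) (q : ℕ) v)
    (hv1 : GE2 S.hc (v - 1) (((q : ℕ) : ℝ) / (((q : ℕ) : ℝ) - 1))) :
    ∃ f ∈ IIb S b v, GE2 S.hc (f - 1) (1 / (((q : ℕ) : ℝ) - 1)) := by
  obtain ⟨L, hL, hLθ⟩ := exists_theta_fun v
  haveI := hL
  obtain ⟨θ, hθ⟩ := exists_theta L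
  obtain ⟨H, hHdef⟩ : ∃ H, H = stab (Iq q) θ := ⟨_, rfl⟩
  have hH : H ≤ Iq q := by rw [hHdef]; exact stab_le _ _
  have hfin : H.relIndex (Iq q) ≠ 0 := by
    rw [hHdef]
    exact relIndex_stab_ne_zero q le_rfl (by rw [Subgroup.relIndex_self]; exact one_ne_zero) θ
  have hvH : v ∈ ratF (M1 * (q : ℕ)) H := by rw [hHdef]; exact hLθ θ hθ (Iq q)
  obtain ⟨N, hNdef⟩ : ∃ N : ℕ, N = H.relIndex (Iq q) := ⟨_, rfl⟩
  have hN : (0 : ℝ) < (N : ℝ) := by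
    rw [hNdef]; exact_mod_cast Nat.pos_of_ne_zero hfin
  have hp1 : (1 : ℝ) < ((q : ℕ) : ℝ) := by exact_mod_cast q.2.one_lt
  have hp2 : (2 : ℝ) ≤ ((q : ℕ) : ℝ) := by exact_mod_cast q.2.two_le
  have hpm : (0 : ℝ) < ((q : ℕ) : ℝ) - 1 := by linarith
  have hone : GE2 S.hc (1 : FN (M1 * (q : ℕ))) 0 := (mem_VV_iff S).mp (one_mem _)
  have hv0' : GT2 S.hc (v - 1) 0 := hv1.toGT2 (div_pos (by linarith) hpm)
  have hvV : GE2 S.hc v 0 := by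
    have := hone.add hv0'.toGE2
    rwa [add_sub_cancel] at this
  obtain ⟨f₀, hf₀, hf₀1⟩ := exists_II_one_M S b hv hv0'
  have hf₀V : GE2 S.hc f₀ 0 := by
    have := hone.add hf₀1.toGE2
    rwa [add_sub_cancel] at this
  obtain ⟨f₁, hf₁, hf₁H, hf₁0⟩ := exists_rat_II S hH hfin b hvH hvV hf₀ hf₀V
  have hf₁1 : GT2 S.hc (f₁ - 1) 0 := by
    have := hf₁0.add hf₀1
    rwa [sub_add_sub_cancel] at this
  have claim : ∀ k : ℕ, ∃ f ∈ IIb S b v, f ∈ ratF (M1 * (q : ℕ)) H ∧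
      GE2 S.hc (f - 1) (min (((k : ℝ) + 1) / (N : ℝ)) (1 / (((q : ℕ) : ℝ) - 1))) := by
    intro k
    induction k with
    | zero =>
      refine ⟨f₁, hf₁, hf₁H, ?_⟩
      have h0 := GE2_of_GT2_rat S hH hfin (y := f₁ - 1) (sub_mem hf₁H (one_mem _)) (k := 0)
        (by rw [Int.cast_zero, zero_div]; exact hf₁1)
      rw [← hNdef] at h0
      refine h0.mono ?_
      push_cast
      exact min_le_left _ _
    | succ k ih =>
      obtain ⟨f, hf, hfH, hfk⟩ := ih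
      by_cases hdone : GE2 S.hc (f - 1) (1 / (((q : ℕ) : ℝ) - 1))
      · exact ⟨f, hf, hfH, hdone.mono (min_le_right _ _)⟩
      have hy0 : f - 1 ≠ 0 := by
        intro h0
        apply hdone
        rw [h0]
        exact ⟨Or.inl rfl, Or.inl rfl⟩
      obtain ⟨a, ha, ha0, hge, hmax⟩ := exists_depth S hH (sub_mem hfH (one_mem _)) hy0
      have hd1 : (wq q).w a < 1 / (((q : ℕ) : ℝ) - 1) := by
        by_contra hcon
        exact hdone (hge.mono (not_lt.mp hcon))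
      have hk := hmax _ hfk
      have hkN : ((k : ℝ) + 1) / (N : ℝ) ≤ (wq q).w a := by
        by_contra hcon
        exact absurd hk (not_le.mpr (lt_min (not_le.mp hcon) hd1))
      have hd0 : 0 < (wq q).w a :=
        lt_of_lt_of_le (div_pos (by positivity) hN) hkN
      obtain ⟨f', hf', hf'H, hf'1⟩ := improve S hH hfin b hvH hv1 hf hfH ha ha0 hd0 hd1 hge
      refine ⟨f', hf', hf'H, ?_⟩
      have h2 : GT2 S.hc (f' - 1) ((((k : ℤ) + 1 : ℤ) : ℝ) / (H.relIndex (Iq q) : ℝ)) := by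
        refine hf'1.mono ?_
        rw [← hNdef]
        push_cast
        exact hkN
      have h3 := GE2_of_GT2_rat S hH hfin (sub_mem hf'H (one_mem _)) h2
      rw [← hNdef] at h3
      refine h3.mono ?_
      push_cast
      exact min_le_left _ _
  obtain ⟨f, hf, -, hfN⟩ := claim N
  refine ⟨f, hf, hfN.mono ?_⟩
  apply le_min _ le_rfl
  rw [div_le_div_iff₀ hpm hN]
  nlinarith

end Fermat.Agent.S33.M
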